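/-
S27 (row 26), package IW (owner helper68): step 6 of NOTES/plan/S27.md, PURE ALGEBRA.
Input (from package ZETA, F. K. Schmidt): an abelian group `G` (= `Pic⁰` over `𝔽̄_p`), an
endomorphism `φ` (Frobenius) such that every element is fixed by some power of `φ`, and an integer
matrix `A` (size `n = 2g`, `det A` prime to `ℓ`; companion matrix of the `L`-polynomial) with
`#G^{φ^m} = |det(1 - A^m)|` for all `m ≥ 1`.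
Output: `G[ℓ^k]` is finite, `#G[ℓ^k] ≤ C ℓ^{nk}`, and `#G[ℓ^k] = ℓ^{nk}` if `G` is `ℓ`-divisible.

Leaves:
* `Stmt_IW_Mat` : lifting the exponent for integer matrices (`B = A^e ≡ 1 mod ℓ²`).
* `Stmt_IW_Syl` : the `ℓ`-primary part of a finite abelian group `H` has order `ℓ^{v_ℓ(#H)}`.
* `Stmt_IW_Fin`, `Stmt_IW_Bound`, `Stmt_IW_Card` : the three outputs (helper68).
-/
import Mathlib

set_option autoImplicit false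

namespace Fermat.Agent.S27.IW

/-- **IW-MAT** (lifting the exponent for matrices): there is `e ≥ 1` such that for all `j` and all
`m'` prime to `ℓ`: `det(1 - A^(e m' ℓ^j)) = det(1 - A^(e ℓ^j)) · u` with `ℓ ∤ u`, and
`det(1 - A^(e ℓ^(j+1))) = det(1 - A^(e ℓ^j)) · ℓ^n · u` with `ℓ ∤ u`.
(`e` = order of `A` in `GL_n(ℤ/ℓ²)`; `B = A^(e ℓ^j) = 1 + ℓ² M`; `B^m - 1 = (B - 1) ∑_{i<m} B^i`,
`∑_{i<m} B^i ≡ m mod ℓ²`, and for `m = ℓ`: `∑_{i<ℓ} B^i = ℓ (1 + ℓ W)`; determinants mod `ℓ`.) -/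
def Stmt_IW_Mat : Prop :=
  ∀ (ℓ : ℕ) [Fact ℓ.Prime] (n : ℕ) (A : Matrix (Fin n) (Fin n) ℤ), ¬ (ℓ : ℤ) ∣ A.det →
    ∃ e : ℕ, 0 < e ∧
      (∀ m' j : ℕ, ¬ ℓ ∣ m' →
        ∃ u : ℤ, ¬ (ℓ : ℤ) ∣ u ∧
          (1 - A ^ (e * m' * ℓ ^ j)).det = (1 - A ^ (e * ℓ ^ j)).det * u) ∧
      (∀ j : ℕ, ∃ u : ℤ, ¬ (ℓ : ℤ) ∣ u ∧
          (1 - A ^ (e * ℓ ^ (j + 1))).det = (1 - A ^ (e * ℓ ^ j)).det * (ℓ : ℤ) ^ n * u)

/-- **IW-SYL**: the `ℓ`-primary part of a finite abelian group `H` has order `ℓ^{v_ℓ(#H)}`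
(Sylow: `Sylow.card_eq_multiplicity` on `Multiplicative H`, or directly). -/
def Stmt_IW_Syl.{u} : Prop :=
  ∀ (ℓ : ℕ) [Fact ℓ.Prime] (H : Type u) [AddCommGroup H] [Finite H],
    Nat.card {x : H // ∃ k : ℕ, (ℓ ^ k) • x = 0} = ℓ ^ (Nat.card H).factorization ℓ

/-- the hypotheses of package IW on `(G, φ, A)` -/
structure Hyp (ℓ : ℕ) {G : Type*} [AddCommGroup G] (φ : G →+ G) {n : ℕ}
    (A : Matrix (Fin n) (Fin n) ℤ) : Prop where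
  det : ¬ (ℓ : ℤ) ∣ A.det
  fix : ∀ x : G, ∃ m : ℕ, 0 < m ∧ (⇑φ)^[m] x = x
  fin : ∀ m : ℕ, 0 < m → Finite {x : G // (⇑φ)^[m] x = x}
  card : ∀ m : ℕ, 0 < m → Nat.card {x : G // (⇑φ)^[m] x = x} = (1 - A ^ m).det.natAbs

/-- **IW-FIN**: the `ℓ^k`-torsion of `G` is finite. -/
def Stmt_IW_Fin.{u} : Prop :=
  ∀ (ℓ : ℕ) [Fact ℓ.Prime] (G : Type u) [AddCommGroup G] (φ : G →+ G) (n : ℕ)
    (A : Matrix (Fin n) (Fin n) ℤ), Hyp ℓ φ A →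
    ∀ k : ℕ, Finite {x : G // (ℓ ^ k) • x = 0}

/-- **IW-BOUND**: `#G[ℓ^k] ≤ C ℓ^{nk}`. -/
def Stmt_IW_Bound.{u} : Prop :=
  ∀ (ℓ : ℕ) [Fact ℓ.Prime] (G : Type u) [AddCommGroup G] (φ : G →+ G) (n : ℕ)
    (A : Matrix (Fin n) (Fin n) ℤ), Hyp ℓ φ A →
    ∃ C : ℕ, ∀ k : ℕ, Nat.card {x : G // (ℓ ^ k) • x = 0} ≤ C * ℓ ^ (n * k)

/-- **IW-CARD**: if `G` is `ℓ`-divisible, `#G[ℓ^k] = ℓ^{nk}`. -/
def Stmt_IW_Card.{u} : Prop :=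
  ∀ (ℓ : ℕ) [Fact ℓ.Prime] (G : Type u) [AddCommGroup G] (φ : G →+ G) (n : ℕ)
    (A : Matrix (Fin n) (Fin n) ℤ), Hyp ℓ φ A →
    (∀ x : G, ∃ y : G, ℓ • y = x) →
    ∀ k : ℕ, Nat.card {x : G // (ℓ ^ k) • x = 0} = ℓ ^ (n * k)

end Fermat.Agent.S27.IW
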