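/-
S27 (row 26), package IW (owner helper68), leaf **IW-MAT** (helper64): lifting the exponent for
integer matrices, `Stmt_IW_Mat` of `S27/IW/Defs.lean`.

`e` = order of `A` in `GL_n(ℤ/ℓ²)`; `B = A^(e ℓ^j) ≡ 1 mod ℓ²`;
`1 - B^m = (1 - B) ∑_{i<m} B^i`, `∑_{i<m} B^i ≡ m mod ℓ²`.
-/
import Fermat.Agent.S27.IW.Defs

set_option autoImplicit false

namespace Fermat.Agent.S27.IW.H64

open Matrix Finset

variable {n : ℕ}

/-- two integer matrices which agree modulo `N` differ by `N` times an integer matrix -/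
theorem exists_eq_add_smul (N : ℕ) (X Y : Matrix (Fin n) (Fin n) ℤ)
    (h : (Int.castRingHom (ZMod N)).mapMatrix X = (Int.castRingHom (ZMod N)).mapMatrix Y) :
    ∃ W : Matrix (Fin n) (Fin n) ℤ, X = Y + (N : ℤ) • W := by
  have hd : ∀ i j, (N : ℤ) ∣ X i j - Y i j := by
    intro i j
    have := congrFun (congrFun h i) j
    simp only [RingHom.mapMatrix_apply, Matrix.map_apply, Int.coe_castRingHom] at this
    rw [← ZMod.intCast_zmod_eq_zero_iff_dvd]
    push_cast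
    rw [this, sub_self]
  choose W hW using hd
  refine ⟨Matrix.of W, ?_⟩
  ext i j
  simp only [Matrix.add_apply, Matrix.smul_apply, Matrix.of_apply, smul_eq_mul]
  rw [← hW i j]
  ring

/-- if `B ≡ 1 mod N` then `∑_{i<m} B^i ≡ m mod N` -/
theorem map_geom_sum (N : ℕ) (B : Matrix (Fin n) (Fin n) ℤ)
    (hB : (Int.castRingHom (ZMod N)).mapMatrix B = 1) (m : ℕ) :
    (Int.castRingHom (ZMod N)).mapMatrix (∑ i ∈ range m, B ^ i) =
      (m : Matrix (Fin n) (Fin n) (ZMod N)) := by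
  rw [map_sum]
  simp only [map_pow, hB, one_pow, sum_const, card_range, nsmul_eq_mul, mul_one]

/-- the determinant of a matrix which is `≡ c mod ℓ` -/
theorem det_of_map_eq_natCast (ℓ : ℕ) (X : Matrix (Fin n) (Fin n) ℤ) (c : ℕ)
    (h : (Int.castRingHom (ZMod ℓ)).mapMatrix X = (c : Matrix (Fin n) (Fin n) (ZMod ℓ))) :
    ((X.det : ℤ) : ZMod ℓ) = (c : ZMod ℓ) ^ n := by
  have h1 := RingHom.map_det (Int.castRingHom (ZMod ℓ)) X
  rw [h] at h1
  simp only [Int.coe_castRingHom] at h1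
  rw [h1, ← diagonal_natCast, det_diagonal]
  simp

/-- `1 - B^m = (1 - B) * ∑_{i<m} B^i`, determinants -/
theorem det_one_sub_pow (B : Matrix (Fin n) (Fin n) ℤ) (m : ℕ) :
    (1 - B ^ m).det = (1 - B).det * (∑ i ∈ range m, B ^ i).det := by
  rw [← det_mul, mul_neg_geom_sum]

/-- powers of a matrix `≡ 1 mod N` are `≡ 1 mod N` -/
theorem map_pow_eq_one (N : ℕ) (B : Matrix (Fin n) (Fin n) ℤ)
    (hB : (Int.castRingHom (ZMod N)).mapMatrix B = 1) (m : ℕ) :
    (Int.castRingHom (ZMod N)).mapMatrix (B ^ m) = 1 := by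
  rw [map_pow, hB, one_pow]

/-- reduction `mod ℓ²` to `mod ℓ` -/
theorem map_eq_one_of_sq (ℓ : ℕ) (B : Matrix (Fin n) (Fin n) ℤ)
    (hB : (Int.castRingHom (ZMod (ℓ ^ 2))).mapMatrix B = 1) :
    (Int.castRingHom (ZMod ℓ)).mapMatrix B = 1 := by
  obtain ⟨W, hW⟩ := exists_eq_add_smul (ℓ ^ 2) B 1 (by rw [hB, map_one])
  rw [hW, map_add, map_one]
  have : (Int.castRingHom (ZMod ℓ)).mapMatrix (((ℓ ^ 2 : ℕ) : ℤ) • W) = 0 := by
    ext i j
    simp only [RingHom.mapMatrix_apply, Matrix.map_apply, Matrix.smul_apply, smul_eq_mul,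
      Int.coe_castRingHom, Matrix.zero_apply]
    push_cast
    rw [pow_two, ZMod.natCast_self, zero_mul, zero_mul]
  rw [this, add_zero]

/-- existence of the exponent `e` -/
theorem exists_pow_map_eq_one (N : ℕ) [NeZero N] (A : Matrix (Fin n) (Fin n) ℤ)
    (hA : IsUnit ((A.det : ℤ) : ZMod N)) :
    ∃ e : ℕ, 0 < e ∧ (Int.castRingHom (ZMod N)).mapMatrix (A ^ e) = 1 := by
  have hu : IsUnit ((Int.castRingHom (ZMod N)).mapMatrix A) := by
    rw [Matrix.isUnit_iff_isUnit_det, ← RingHom.map_det]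
    exact hA
  obtain ⟨u, hu⟩ := hu
  refine ⟨orderOf u, orderOf_pos u, ?_⟩
  rw [map_pow, ← hu, ← Units.val_pow_eq_pow_val, pow_orderOf_eq_one, Units.val_one]

/-- **IW-MAT**. -/
theorem stmt_IW_Mat : Stmt_IW_Mat := by
  intro ℓ _ n A hA
  have hℓ : ℓ.Prime := Fact.out
  have : NeZero (ℓ ^ 2) := ⟨pow_ne_zero _ hℓ.ne_zero⟩
  have hunit : IsUnit ((A.det : ℤ) : ZMod (ℓ ^ 2)) := by
    rw [ZMod.coe_int_isUnit_iff_isCoprime]
    push_cast
    refine IsCoprime.pow_left ?_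
    exact (Nat.prime_iff_prime_int.mp hℓ).coprime_iff_not_dvd.2 hA
  obtain ⟨e, he, hAe⟩ := exists_pow_map_eq_one (ℓ ^ 2) A hunit
  have hB : ∀ j : ℕ, (Int.castRingHom (ZMod (ℓ ^ 2))).mapMatrix (A ^ (e * ℓ ^ j)) = 1 := by
    intro j
    rw [pow_mul]
    exact map_pow_eq_one _ _ hAe _
  have hndvd : ∀ (X : Matrix (Fin n) (Fin n) ℤ) (c : ℕ), ¬ ℓ ∣ c →
      (Int.castRingHom (ZMod ℓ)).mapMatrix X = (c : Matrix (Fin n) (Fin n) (ZMod ℓ)) →
      ¬ (ℓ : ℤ) ∣ X.det := by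
    intro X c hc hX hdvd
    have h1 := det_of_map_eq_natCast ℓ X c hX
    rw [(ZMod.intCast_zmod_eq_zero_iff_dvd _ _).2 hdvd] at h1
    have h2 : (c : ZMod ℓ) = 0 := by
      by_cases hn : n = 0
      · subst hn
        simp at h1
      · exact pow_eq_zero_iff hn |>.1 h1.symm
    exact hc ((ZMod.natCast_eq_zero_iff _ _).1 h2)
  refine ⟨e, he, ?_, ?_⟩
  · intro m' j hm'
    refine ⟨(∑ i ∈ range m', (A ^ (e * ℓ ^ j)) ^ i).det, ?_, ?_⟩
    · exact hndvd _ m' hm' (map_geom_sum ℓ _ (map_eq_one_of_sq ℓ _ (hB j)) m')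
    · rw [← det_one_sub_pow, ← pow_mul]
      congr 3
      ring
  · intro j
    obtain ⟨W, hW⟩ := exists_eq_add_smul (ℓ ^ 2) (∑ i ∈ range ℓ, (A ^ (e * ℓ ^ j)) ^ i)
      ((ℓ : ℕ) : Matrix (Fin n) (Fin n) ℤ) (by
        rw [map_geom_sum (ℓ ^ 2) _ (hB j) ℓ, map_natCast])
    have hsum : ∑ i ∈ range ℓ, (A ^ (e * ℓ ^ j)) ^ i =
        (ℓ : ℤ) • (1 + (ℓ : ℤ) • W) := by
      rw [hW, smul_add, smul_smul]
      congr 1
      · ext a b
        simp [Matrix.natCast_apply, Matrix.one_apply]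
      · push_cast
        rw [pow_two]
    refine ⟨(1 + (ℓ : ℤ) • W).det, ?_, ?_⟩
    · refine hndvd _ 1 (fun h => hℓ.one_lt.ne' (Nat.dvd_one.1 h)) ?_
      rw [map_add, map_one, Nat.cast_one]
      have : (Int.castRingHom (ZMod ℓ)).mapMatrix ((ℓ : ℤ) • W) = 0 := by
        ext a b
        simp only [RingHom.mapMatrix_apply, Matrix.map_apply, Matrix.smul_apply, smul_eq_mul,
          Int.coe_castRingHom, Matrix.zero_apply]
        push_cast
        rw [ZMod.natCast_self, zero_mul]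
      rw [this, add_zero]
    · rw [pow_succ, ← mul_assoc, pow_mul _ _ ℓ, det_one_sub_pow, hsum, det_smul,
        Fintype.card_fin]
      ring

end Fermat.Agent.S27.IW.H64
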