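/-
S27 (row 26), package IW (owner helper68), leaf **IW-SYL** (helper64): the `ℓ`-primary part of a
finite abelian group `H` has order `ℓ^{v_ℓ(#H)}`, `Stmt_IW_Syl` of `S27/IW/Defs.lean`.
-/
import Fermat.Agent.S27.IW.Defs

set_option autoImplicit false

universe u

namespace Fermat.Agent.S27.IW.H64

/-- the `ℓ`-primary part of a commutative group -/
def primaryPart (ℓ : ℕ) (G : Type u) [CommGroup G] : Subgroup G where
  carrier := {x | ∃ k : ℕ, x ^ (ℓ ^ k) = 1}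
  one_mem' := ⟨0, one_pow _⟩
  mul_mem' := by
    rintro x y ⟨a, ha⟩ ⟨b, hb⟩
    refine ⟨a + b, ?_⟩
    rw [mul_pow, pow_add, pow_mul, ha, one_pow, mul_comm (ℓ ^ a), pow_mul, hb, one_pow, one_mul]
  inv_mem' := by
    rintro x ⟨a, ha⟩
    exact ⟨a, by rw [inv_pow, ha, inv_one]⟩

theorem mem_primaryPart {ℓ : ℕ} {G : Type u} [CommGroup G] {x : G} :
    x ∈ primaryPart ℓ G ↔ ∃ k : ℕ, x ^ (ℓ ^ k) = 1 := Iff.rfl

theorem card_primaryPart (ℓ : ℕ) [Fact ℓ.Prime] (G : Type u) [CommGroup G] [Finite G] :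
    Nat.card (primaryPart ℓ G) = ℓ ^ (Nat.card G).factorization ℓ := by
  have hP : IsPGroup ℓ (primaryPart ℓ G) := by
    rintro ⟨g, k, hk⟩
    exact ⟨k, Subtype.ext hk⟩
  obtain ⟨Q, hQ⟩ := hP.exists_le_sylow
  have hQP : (Q : Subgroup G) ≤ primaryPart ℓ G := by
    intro g hg
    obtain ⟨k, hk⟩ := Q.isPGroup' ⟨g, hg⟩
    exact ⟨k, congrArg Subtype.val hk⟩
  have heq : primaryPart ℓ G = (Q : Subgroup G) := le_antisymm hQ hQP
  rw [heq]
  exact Q.card_eq_multiplicity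

/-- **IW-SYL**. -/
theorem stmt_IW_Syl : Stmt_IW_Syl.{u} := by
  intro ℓ _ H _ _
  have h1 := card_primaryPart ℓ (Multiplicative H)
  rw [Nat.card_congr (Multiplicative.toAdd : Multiplicative H ≃ H)] at h1
  rw [← h1]
  refine Nat.card_congr ⟨fun x => ⟨Multiplicative.ofAdd x.1, ?_⟩, fun y => ⟨Multiplicative.toAdd y.1, ?_⟩,
    fun x => rfl, fun y => rfl⟩
  · obtain ⟨k, hk⟩ := x.2
    refine ⟨k, ?_⟩
    rw [← ofAdd_nsmul, hk, ofAdd_zero]
  · obtain ⟨k, hk⟩ := y.2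
    refine ⟨k, ?_⟩
    have := congrArg Multiplicative.toAdd hk
    rwa [toAdd_pow, toAdd_one] at this

end Fermat.Agent.S27.IW.H64
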