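/-
S27, package IW (helper68): basic objects and the binomial lemmas.
`G` an abelian group, `Φ` an endomorphism, `t = Φ - 1`.
-/
import Fermat.Agent.S27.IW.Defs

set_option autoImplicit false
set_option linter.unusedSectionVars false
set_option linter.unusedVariables false

namespace Fermat.Agent.S27.IW.H68

variable {G : Type*} [AddCommGroup G]

/-- the `N`-torsion of `G` -/
def tors (G : Type*) [AddCommGroup G] (N : ℕ) : AddSubgroup G where
  carrier := {x | N • x = 0}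
  zero_mem' := smul_zero N
  add_mem' := by
    intro a b ha hb
    show N • (a + b) = 0
    rw [smul_add, ha, hb, add_zero]
  neg_mem' := by
    intro a ha
    show N • (-a) = 0
    rw [smul_neg, ha, neg_zero]

theorem mem_tors {N : ℕ} {x : G} : x ∈ tors G N ↔ N • x = 0 := Iff.rfl

/-- the `ℓ`-primary part of `G` -/
def prim (G : Type*) [AddCommGroup G] (ℓ : ℕ) : AddSubgroup G where
  carrier := {x | ∃ k : ℕ, (ℓ ^ k) • x = 0}
  zero_mem' := ⟨0, smul_zero _⟩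
  add_mem' := by
    rintro a b ⟨k, hk⟩ ⟨k', hk'⟩
    refine ⟨k + k', ?_⟩
    have h1 : (ℓ ^ (k + k')) • a = 0 := by
      rw [pow_add, mul_comm, mul_smul, hk, smul_zero]
    have h2 : (ℓ ^ (k + k')) • b = 0 := by
      rw [pow_add, mul_smul, hk', smul_zero]
    rw [smul_add, h1, h2, add_zero]
  neg_mem' := by
    rintro a ⟨k, hk⟩
    exact ⟨k, by rw [smul_neg, hk, neg_zero]⟩

theorem mem_prim {ℓ : ℕ} {x : G} : x ∈ prim G ℓ ↔ ∃ k : ℕ, (ℓ ^ k) • x = 0 := Iff.rfl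

theorem tors_le_prim (ℓ k : ℕ) : tors G (ℓ ^ k) ≤ prim G ℓ := fun x hx => ⟨k, hx⟩

theorem tors_mono (ℓ : ℕ) {k k' : ℕ} (h : k ≤ k') : tors G (ℓ ^ k) ≤ tors G (ℓ ^ k') := by
  intro x hx
  obtain ⟨d, rfl⟩ := Nat.exists_eq_add_of_le h
  show (ℓ ^ (k + d)) • x = 0
  rw [pow_add, mul_comm, mul_smul, mem_tors.1 hx, smul_zero]

/-- the fixed points of an endomorphism -/
def fixE (Φ : Module.End ℤ G) : AddSubgroup G where
  carrier := {x | Φ x = x}
  zero_mem' := map_zero Φ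
  add_mem' := by
    intro a b ha hb
    show Φ (a + b) = a + b
    rw [map_add, ha, hb]
  neg_mem' := by
    intro a ha
    show Φ (-a) = -a
    rw [map_neg, ha]

theorem mem_fixE {Φ : Module.End ℤ G} {x : G} : x ∈ fixE Φ ↔ Φ x = x := Iff.rfl

theorem fixE_pow_le (Φ : Module.End ℤ G) (a b : ℕ) : fixE (Φ ^ a) ≤ fixE (Φ ^ (a * b)) := by
  intro x hx
  rw [mem_fixE] at hx ⊢
  rw [pow_mul]
  induction b with
  | zero => simp
  | succ b ih =>
    rw [pow_succ, Module.End.mul_apply, hx, ih]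

theorem end_nsmul (P : Module.End ℤ G) (N : ℕ) (x : G) : P (N • x) = N • P x :=
  map_nsmul P N x

/-- binomial lemma: if `ℓ • (Ψ - 1) x = 0` then `Ψ^ℓ x = x + (Ψ - 1)^ℓ x` -/
theorem pow_prime_apply (ℓ : ℕ) (hℓ : ℓ.Prime) (Ψ : Module.End ℤ G) (x : G)
    (hx : ℓ • (Ψ - 1) x = 0) : (Ψ ^ ℓ) x = x + ((Ψ - 1) ^ ℓ) x := by
  set D := Ψ - 1 with hD
  have hΨ : Ψ = D + 1 := by rw [hD]; abel
  have hc : Commute D 1 := Commute.one_right D
  rw [hΨ, hc.add_pow]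
  rw [LinearMap.sum_apply]
  have hterm : ∀ m ∈ Finset.range (ℓ + 1), m ≠ 0 → m ≠ ℓ →
      (D ^ m * 1 ^ (ℓ - m) * ((ℓ.choose m : ℕ) : Module.End ℤ G)) x = 0 := by
    intro m hm h0 hl
    have hlt : m < ℓ := lt_of_le_of_ne (Nat.lt_succ_iff.1 (Finset.mem_range.1 hm)) hl
    obtain ⟨c, hc⟩ := hℓ.dvd_choose_self h0 hlt
    rw [one_pow, mul_one, Module.End.mul_apply]
    have h1 : ((ℓ.choose m : ℕ) : Module.End ℤ G) x = (ℓ.choose m) • x := by
      rw [← Nat.cast_smul_eq_nsmul ℤ]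
      simp
    rw [h1, end_nsmul, hc, mul_comm, mul_smul]
    obtain ⟨m', rfl⟩ := Nat.exists_eq_succ_of_ne_zero h0
    rw [pow_succ, Module.End.mul_apply, ← end_nsmul, hx, map_zero, smul_zero]
  rw [Finset.sum_eq_add_of_mem 0 ℓ (Finset.mem_range.2 (Nat.succ_pos ℓ))
    (Finset.mem_range.2 (Nat.lt_succ_self ℓ)) hℓ.pos.ne
    (fun m hm hne => hterm m hm hne.1 hne.2)]
  simp

/-- two endomorphisms which agree on a subgroup stable under the second one have powers which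
agree on it -/
theorem pow_agree (P Q : Module.End ℤ G) (S : AddSubgroup G) (hS : ∀ x ∈ S, Q x ∈ S)
    (h : ∀ x ∈ S, P x = Q x) (k : ℕ) : ∀ x ∈ S, (P ^ k) x = (Q ^ k) x := by
  induction k with
  | zero => intro x _; simp
  | succ k ih =>
    intro x hx
    rw [pow_succ, pow_succ, Module.End.mul_apply, Module.End.mul_apply, h x hx]
    exact ih _ (hS x hx)

theorem tors_stable (N : ℕ) (P : Module.End ℤ G) : ∀ x ∈ tors G N, P x ∈ tors G N := by
  intro x hx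
  show N • P x = 0
  rw [← end_nsmul, mem_tors.1 hx, map_zero]

/-- on the `ℓ`-torsion, `Φ^(ℓ^j) - 1 = (Φ - 1)^(ℓ^j)` -/
theorem pow_prime_pow_apply (ℓ : ℕ) (hℓ : ℓ.Prime) (Φ : Module.End ℤ G) (j : ℕ) :
    ∀ x ∈ tors G ℓ, (Φ ^ (ℓ ^ j)) x = x + ((Φ - 1) ^ (ℓ ^ j)) x := by
  induction j with
  | zero =>
    intro x _
    simp
  | succ j ih =>
    intro x hx
    have h1 : ∀ y ∈ tors G ℓ, (Φ ^ (ℓ ^ j) - 1) y = ((Φ - 1) ^ (ℓ ^ j)) y := by
      intro y hy
      rw [LinearMap.sub_apply, ih y hy]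
      simp
    have h2 : ℓ • (Φ ^ (ℓ ^ j) - 1) x = 0 := by
      rw [← end_nsmul, mem_tors.1 hx, map_zero]
    rw [pow_succ, pow_mul, pow_prime_apply ℓ hℓ _ x h2]
    congr 1
    rw [pow_agree _ _ (tors G ℓ) (tors_stable ℓ _) h1 ℓ x hx, ← pow_mul]

end Fermat.Agent.S27.IW.H68
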