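/-
S27, package IW (helper68): from the growth of the fixed points to the torsion.
`Growth ℓ Φ n c₀`: `T_j = (ℓ-primary part)^{Φ^(ℓ^j)}` is finite of order `ℓ^(c₀ + n j)` and the
`T_j` cover the `ℓ`-primary part.
Part 1: `G[ℓ]` is finite (filtration by `ker (Φ - 1)^i`), `G[ℓ^k]` is finite.
-/
import Fermat.Agent.S27.IW.H68_Basic

set_option autoImplicit false
set_option linter.unusedSectionVars false
set_option linter.unusedVariables false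
set_option linter.style.haveILetI false

namespace Fermat.Agent.S27.IW.H68

variable {G : Type*} [AddCommGroup G]

/-- `T_j`: the `ℓ`-primary elements fixed by `Φ^(ℓ^j)` -/
def Tj (ℓ : ℕ) (Φ : Module.End ℤ G) (j : ℕ) : AddSubgroup G :=
  fixE (Φ ^ (ℓ ^ j)) ⊓ prim G ℓ

theorem mem_Tj {ℓ : ℕ} {Φ : Module.End ℤ G} {j : ℕ} {x : G} :
    x ∈ Tj ℓ Φ j ↔ (Φ ^ (ℓ ^ j)) x = x ∧ ∃ k : ℕ, (ℓ ^ k) • x = 0 := Iff.rfl

/-- the growth hypothesis -/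
structure Growth (ℓ : ℕ) (Φ : Module.End ℤ G) (n c₀ : ℕ) : Prop where
  fin : ∀ j, Finite ↥(Tj ℓ Φ j)
  card : ∀ j, Nat.card ↥(Tj ℓ Φ j) = ℓ ^ (c₀ + n * j)
  cover : ∀ x ∈ prim G ℓ, ∃ j, x ∈ fixE (Φ ^ (ℓ ^ j))

theorem fixE_mono (ℓ : ℕ) (Φ : Module.End ℤ G) {j j' : ℕ} (h : j ≤ j') :
    fixE (Φ ^ (ℓ ^ j)) ≤ fixE (Φ ^ (ℓ ^ j')) := by
  obtain ⟨d, rfl⟩ := Nat.exists_eq_add_of_le h
  rw [pow_add]
  exact fixE_pow_le Φ _ _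

theorem Tj_mono (ℓ : ℕ) (Φ : Module.End ℤ G) {j j' : ℕ} (h : j ≤ j') :
    Tj ℓ Φ j ≤ Tj ℓ Φ j' :=
  inf_le_inf_right _ (fixE_mono ℓ Φ h)

/-- the filtration of `G[ℓ]` by the kernels of `(Φ - 1)^i` -/
def Kf (ℓ : ℕ) (Φ : Module.End ℤ G) (i : ℕ) : AddSubgroup G where
  carrier := {x | ℓ • x = 0 ∧ ((Φ - 1) ^ i) x = 0}
  zero_mem' := ⟨smul_zero _, map_zero _⟩
  add_mem' := by
    rintro a b ⟨ha, ha'⟩ ⟨hb, hb'⟩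
    exact ⟨by rw [smul_add, ha, hb, add_zero], by rw [map_add, ha', hb', add_zero]⟩
  neg_mem' := by
    rintro a ⟨ha, ha'⟩
    exact ⟨by rw [smul_neg, ha, neg_zero], by rw [map_neg, ha', neg_zero]⟩

theorem mem_Kf {ℓ : ℕ} {Φ : Module.End ℤ G} {i : ℕ} {x : G} :
    x ∈ Kf ℓ Φ i ↔ ℓ • x = 0 ∧ ((Φ - 1) ^ i) x = 0 := Iff.rfl

theorem Kf_succ_le (ℓ : ℕ) (Φ : Module.End ℤ G) (i : ℕ) : Kf ℓ Φ i ≤ Kf ℓ Φ (i + 1) := by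
  rintro x ⟨h1, h2⟩
  refine ⟨h1, ?_⟩
  rw [pow_succ', Module.End.mul_apply, h2, map_zero]

theorem Kf_mono (ℓ : ℕ) (Φ : Module.End ℤ G) {i i' : ℕ} (h : i ≤ i') :
    Kf ℓ Φ i ≤ Kf ℓ Φ i' := by
  induction h with
  | refl => exact le_rfl
  | step _ ih => exact ih.trans (Kf_succ_le ℓ Φ _)

theorem Kf_pow (ℓ : ℕ) (hℓ : ℓ.Prime) (Φ : Module.End ℤ G) (j : ℕ) (x : G) :
    x ∈ Kf ℓ Φ (ℓ ^ j) ↔ ℓ • x = 0 ∧ (Φ ^ (ℓ ^ j)) x = x := by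
  constructor
  · rintro ⟨h1, h2⟩
    refine ⟨h1, ?_⟩
    rw [pow_prime_pow_apply ℓ hℓ Φ j x h1, h2, add_zero]
  · rintro ⟨h1, h2⟩
    refine ⟨h1, ?_⟩
    have h3 := pow_prime_pow_apply ℓ hℓ Φ j x h1
    rw [h2] at h3
    have h4 : x + 0 = x + ((Φ - 1) ^ (ℓ ^ j)) x := by rw [add_zero]; exact h3
    exact (add_left_cancel h4).symm

theorem Kf_pow_le_Tj (ℓ : ℕ) (hℓ : ℓ.Prime) (Φ : Module.End ℤ G) (j : ℕ) :
    Kf ℓ Φ (ℓ ^ j) ≤ Tj ℓ Φ j := by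
  intro x hx
  obtain ⟨h1, h2⟩ := (Kf_pow ℓ hℓ Φ j x).1 hx
  exact ⟨h2, 1, by rw [pow_one]; exact h1⟩

theorem Kf_stab (ℓ : ℕ) (Φ : Module.End ℤ G) (i : ℕ) (h : Kf ℓ Φ (i + 1) = Kf ℓ Φ i) :
    Kf ℓ Φ (i + 2) = Kf ℓ Φ (i + 1) := by
  apply le_antisymm _ (Kf_succ_le ℓ Φ (i + 1))
  rintro x ⟨h1, h2⟩
  have h3 : (Φ - 1) x ∈ Kf ℓ Φ (i + 1) := by
    refine ⟨?_, ?_⟩
    · rw [← end_nsmul, h1, map_zero]
    · rw [← Module.End.mul_apply, ← pow_succ]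
      exact h2
  rw [h] at h3
  refine ⟨h1, ?_⟩
  rw [pow_succ, Module.End.mul_apply]
  exact h3.2

theorem Kf_stab_all (ℓ : ℕ) (Φ : Module.End ℤ G) (i : ℕ) (h : Kf ℓ Φ (i + 1) = Kf ℓ Φ i) :
    ∀ d, Kf ℓ Φ (i + d) = Kf ℓ Φ i := by
  have key : ∀ d, Kf ℓ Φ (i + d + 1) = Kf ℓ Φ (i + d) := by
    intro d
    induction d with
    | zero => exact h
    | succ d ih => exact Kf_stab ℓ Φ (i + d) ih
  intro d
  induction d with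
  | zero => rfl
  | succ d ih =>
    rw [← add_assoc, key d, ih]

variable {ℓ : ℕ} {Φ : Module.End ℤ G} {n c₀ : ℕ}

theorem Growth.Kf_finite (hℓ : ℓ.Prime) (h : Growth ℓ Φ n c₀) (i : ℕ) : Finite ↥(Kf ℓ Φ i) := by
  haveI := h.fin i
  have h1 : Kf ℓ Φ i ≤ Tj ℓ Φ i :=
    (Kf_mono ℓ Φ (Nat.lt_pow_self hℓ.one_lt).le).trans (Kf_pow_le_Tj ℓ hℓ Φ i)
  exact Finite.of_injective (AddSubgroup.inclusion h1) (AddSubgroup.inclusion_injective h1)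

theorem Growth.Kf_card_le (hℓ : ℓ.Prime) (h : Growth ℓ Φ n c₀) (j : ℕ) :
    Nat.card ↥(Kf ℓ Φ (ℓ ^ j)) ≤ ℓ ^ (c₀ + n * j) := by
  haveI := h.fin j
  rw [← h.card j]
  exact AddSubgroup.card_le_of_le (Kf_pow_le_Tj ℓ hℓ Φ j)

/-- strict growth forces `2^N ≤ #K_N` -/
theorem Growth.Kf_card_ge (hℓ : ℓ.Prime) (h : Growth ℓ Φ n c₀) (N : ℕ)
    (hne : ∀ i < N, Kf ℓ Φ (i + 1) ≠ Kf ℓ Φ i) : 2 ^ N ≤ Nat.card ↥(Kf ℓ Φ N) := by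
  induction N with
  | zero =>
    haveI := h.Kf_finite hℓ 0
    rw [pow_zero]
    exact Nat.card_pos
  | succ N ih =>
    have ih' := ih (fun i hi => hne i (Nat.lt_succ_of_lt hi))
    haveI := h.Kf_finite hℓ (N + 1)
    haveI := h.Kf_finite hℓ N
    have hle := Kf_succ_le ℓ Φ N
    obtain ⟨d, hd⟩ := AddSubgroup.card_dvd_of_le hle
    have hpos : 0 < Nat.card ↥(Kf ℓ Φ (N + 1)) := Nat.card_pos
    have hd2 : 2 ≤ d := by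
      by_contra hlt
      have hd1 : d = 0 ∨ d = 1 := by omega
      rcases hd1 with rfl | rfl
      · rw [mul_zero] at hd
        omega
      · rw [mul_one] at hd
        exact hne N (Nat.lt_succ_self N)
          (AddSubgroup.eq_of_le_of_card_ge hle hd.le).symm
    rw [hd, pow_succ]
    calc 2 ^ N * 2 ≤ Nat.card ↥(Kf ℓ Φ N) * d := Nat.mul_le_mul ih' hd2

/-- an exponential beats a linear function -/
theorem exists_lin_lt_two_pow (a b : ℕ) : ∃ j, a + b * j < 2 ^ j := by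
  have key : ∀ s : ℕ, 1 ≤ s → 3 * s ^ 2 < 4 ^ s := by
    intro s hs
    induction s with
    | zero => omega
    | succ s ih =>
      rcases Nat.eq_zero_or_pos s with rfl | hs'
      · norm_num
      · have := ih hs'
        rw [pow_succ 4]
        nlinarith
  refine ⟨2 * (a + b + 1), ?_⟩
  have h1 := key (a + b + 1) (by omega)
  have h2 : (2 : ℕ) ^ (2 * (a + b + 1)) = 4 ^ (a + b + 1) := by
    rw [pow_mul]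
    norm_num
  rw [h2]
  nlinarith

theorem exists_pow_lt_two_pow (hℓ : ℓ.Prime) (c₀ n : ℕ) :
    ∃ j, ℓ ^ (c₀ + n * j) < 2 ^ (ℓ ^ j) := by
  obtain ⟨j, hj⟩ := exists_lin_lt_two_pow (ℓ * c₀) (ℓ * n)
  refine ⟨j, ?_⟩
  have h1 : ℓ ^ (c₀ + n * j) ≤ (2 ^ ℓ) ^ (c₀ + n * j) :=
    Nat.pow_le_pow_left Nat.lt_two_pow_self.le _
  have h2 : (2 ^ ℓ) ^ (c₀ + n * j) = 2 ^ (ℓ * c₀ + ℓ * n * j) := by
    rw [← pow_mul]
    congr 1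
    ring
  have h3 : 2 ^ j ≤ ℓ ^ j := Nat.pow_le_pow_left hℓ.two_le j
  have h4 : (2 : ℕ) ^ (ℓ * c₀ + ℓ * n * j) < 2 ^ (ℓ ^ j) :=
    Nat.pow_lt_pow_right (by norm_num) (lt_of_lt_of_le hj h3)
  calc ℓ ^ (c₀ + n * j) ≤ (2 ^ ℓ) ^ (c₀ + n * j) := h1
    _ = 2 ^ (ℓ * c₀ + ℓ * n * j) := h2
    _ < 2 ^ (ℓ ^ j) := h4

/-- the filtration stabilises -/
theorem Growth.exists_stab (hℓ : ℓ.Prime) (h : Growth ℓ Φ n c₀) :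
    ∃ i, Kf ℓ Φ (i + 1) = Kf ℓ Φ i := by
  by_contra hcon
  push Not at hcon
  obtain ⟨j, hj⟩ := exists_pow_lt_two_pow hℓ c₀ n
  have h1 := h.Kf_card_ge hℓ (ℓ ^ j) (fun i _ => hcon i)
  have h2 := h.Kf_card_le hℓ j
  omega

/-- **IW-FIN**, `k = 1`, with the level -/
theorem Growth.tors_le (hℓ : ℓ.Prime) (h : Growth ℓ Φ n c₀) :
    ∃ j₁, tors G ℓ ≤ fixE (Φ ^ (ℓ ^ j₁)) := by
  obtain ⟨i, hi⟩ := h.exists_stab hℓ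
  refine ⟨i, ?_⟩
  intro x hx
  have hx' : x ∈ prim G ℓ := ⟨1, by rw [pow_one]; exact hx⟩
  obtain ⟨j, hj⟩ := h.cover x hx'
  have h1 : x ∈ Kf ℓ Φ (ℓ ^ j) := (Kf_pow ℓ hℓ Φ j x).2 ⟨hx, hj⟩
  have h2 : x ∈ Kf ℓ Φ (i + ℓ ^ j) := Kf_mono ℓ Φ (Nat.le_add_left _ _) h1
  rw [Kf_stab_all ℓ Φ i hi] at h2
  have h3 : x ∈ Kf ℓ Φ (ℓ ^ i) := Kf_mono ℓ Φ (Nat.lt_pow_self hℓ.one_lt).le h2
  exact ((Kf_pow ℓ hℓ Φ i x).1 h3).2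

end Fermat.Agent.S27.IW.H68
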