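/-
S27, package IW (helper68): the bridge leaf IW-GROWTH.
From `Hyp` (fixed points of `φ^m` counted by `|det(1 - A^m)|`), IW-MAT and IW-SYL:
there is `e ≥ 1` such that `Φ = φ^e` satisfies `H68.Growth ℓ Φ n c₀`.
(`#T_m = ℓ^{v_ℓ |det(1 - A^m)|}` by IW-SYL applied to the finite group of fixed points of `φ^m`;
`v_ℓ det(1 - A^(e ℓ^(j+1))) = v_ℓ det(1 - A^(e ℓ^j)) + n` and
`v_ℓ det(1 - A^(e m' ℓ^j)) = v_ℓ det(1 - A^(e ℓ^j))` for `ℓ ∤ m'` by IW-MAT, hence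
`T_{e m' ℓ^j} = T_{e ℓ^j}` (same order); cover: `x` fixed by `φ^m`, `m = ℓ^j m'`, so by
`φ^(e m' ℓ^j)`.)
-/
import Fermat.Agent.S27.IW.H68_Growth

set_option autoImplicit false

namespace Fermat.Agent.S27.IW

/-- **IW-GROWTH** -/
def Stmt_IW_Growth.{u} : Prop :=
  ∀ (ℓ : ℕ) [Fact ℓ.Prime] (G : Type u) [AddCommGroup G] (φ : G →+ G) (n : ℕ)
    (A : Matrix (Fin n) (Fin n) ℤ), Hyp ℓ φ A →
    ∃ e c₀ : ℕ, 0 < e ∧ H68.Growth ℓ (φ.toIntLinearMap ^ e) n c₀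

end Fermat.Agent.S27.IW
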