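/-
S27 (row 26), package IW (owner helper68), leaf **IW-GROWTH** (helper64): `Stmt_IW_Growth` of
`S27/IW/H68_Defs2.lean`, from IW-MAT (`H64.stmt_IW_Mat`) and IW-SYL (`H64.stmt_IW_Syl`).
-/
import Fermat.Agent.S27.IW.H68_Defs2
import Fermat.Agent.S27.IW.H64_Mat
import Fermat.Agent.S27.IW.H64_Syl

set_option autoImplicit false
set_option linter.unusedSectionVars false

universe u

namespace Fermat.Agent.S27.IW.H64

open H68

variable {G : Type u} [AddCommGroup G]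

/-- the fixed points of `φ^m`, in the two languages -/
theorem mem_fixE_pow (φ : G →+ G) (m : ℕ) (x : G) :
    x ∈ fixE (φ.toIntLinearMap ^ m) ↔ (⇑φ)^[m] x = x := by
  rw [mem_fixE, Module.End.pow_apply]
  rfl

/-- the fixed points of `φ^m`, as types -/
def fixEquiv (φ : G →+ G) (m : ℕ) :
    ↥(fixE (φ.toIntLinearMap ^ m)) ≃ {x : G // (⇑φ)^[m] x = x} :=
  Equiv.subtypeEquivRight (mem_fixE_pow φ m)

/-- the `ℓ`-primary part of the fixed points -/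
def primEquiv (ℓ : ℕ) (Q : Module.End ℤ G) :
    ↥(fixE Q ⊓ prim G ℓ) ≃ {x : ↥(fixE Q) // ∃ k : ℕ, (ℓ ^ k) • x = 0} where
  toFun x := ⟨⟨x.1, x.2.1⟩, by
    obtain ⟨k, hk⟩ := x.2.2
    exact ⟨k, Subtype.ext hk⟩⟩
  invFun y := ⟨y.1.1, y.1.2, by
    obtain ⟨k, hk⟩ := y.2
    exact ⟨k, congrArg Subtype.val hk⟩⟩
  left_inv _ := rfl
  right_inv _ := rfl

section main

variable {ℓ : ℕ} [Fact ℓ.Prime] {φ : G →+ G} {n : ℕ} {A : Matrix (Fin n) (Fin n) ℤ}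

theorem finite_fixE (h : Hyp ℓ φ A) {m : ℕ} (hm : 0 < m) :
    Finite ↥(fixE (φ.toIntLinearMap ^ m)) :=
  have := h.fin m hm
  Finite.of_equiv _ (fixEquiv φ m).symm

theorem card_fixE (h : Hyp ℓ φ A) {m : ℕ} (hm : 0 < m) :
    Nat.card ↥(fixE (φ.toIntLinearMap ^ m)) = (1 - A ^ m).det.natAbs := by
  rw [Nat.card_congr (fixEquiv φ m), h.card m hm]

theorem det_natAbs_ne_zero (h : Hyp ℓ φ A) {m : ℕ} (hm : 0 < m) :
    (1 - A ^ m).det.natAbs ≠ 0 := by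
  rw [← card_fixE h hm]
  have := finite_fixE h hm
  exact Nat.card_pos.ne'

/-- the order of the `ℓ`-primary part of the fixed points of `φ^m` -/
theorem card_prim_fixE (h : Hyp ℓ φ A) {m : ℕ} (hm : 0 < m) :
    Nat.card ↥(fixE (φ.toIntLinearMap ^ m) ⊓ prim G ℓ) =
      ℓ ^ (1 - A ^ m).det.natAbs.factorization ℓ := by
  have := finite_fixE h hm
  rw [Nat.card_congr (primEquiv ℓ _), stmt_IW_Syl.{u} ℓ ↥(fixE (φ.toIntLinearMap ^ m)),
    card_fixE h hm]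

theorem finite_prim_fixE (h : Hyp ℓ φ A) {m : ℕ} (hm : 0 < m) :
    Finite ↥(fixE (φ.toIntLinearMap ^ m) ⊓ prim G ℓ) :=
  have := finite_fixE h hm
  Finite.of_injective (fun x : ↥(fixE (φ.toIntLinearMap ^ m) ⊓ prim G ℓ) =>
    (⟨x.1, x.2.1⟩ : ↥(fixE (φ.toIntLinearMap ^ m)))) (fun x y hxy => by
      apply Subtype.ext
      have h1 := congrArg (fun z : ↥(fixE (φ.toIntLinearMap ^ m)) => (z : G)) hxy
      exact h1)

/-- the factorization of a product `a * ℓ^n * u`, `ℓ ∤ u` -/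
theorem factorization_of_eq {a b : ℤ} {u : ℤ} {c : ℕ} (ha : a.natAbs ≠ 0) (hu : ¬ (ℓ : ℤ) ∣ u)
    (hb : b = a * (ℓ : ℤ) ^ c * u) :
    b.natAbs.factorization ℓ = a.natAbs.factorization ℓ + c := by
  have hℓ : ℓ.Prime := Fact.out
  have hu0 : u.natAbs ≠ 0 := by
    intro h0
    rw [Int.natAbs_eq_zero] at h0
    exact hu (h0 ▸ dvd_zero _)
  have hu' : ¬ ℓ ∣ u.natAbs := fun hd => hu (Int.natCast_dvd.2 hd)
  rw [hb, Int.natAbs_mul, Int.natAbs_mul, Int.natAbs_pow, Int.natAbs_natCast,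
    Nat.factorization_mul (mul_ne_zero ha (pow_ne_zero _ hℓ.ne_zero)) hu0,
    Nat.factorization_mul ha (pow_ne_zero _ hℓ.ne_zero), Finsupp.add_apply, Finsupp.add_apply,
    hℓ.factorization_pow, Finsupp.single_eq_same, Nat.factorization_eq_zero_of_not_dvd hu',
    add_zero]

end main

/-- **IW-GROWTH**. -/
theorem stmt_IW_Growth : Stmt_IW_Growth.{u} := by
  intro ℓ _ G _ φ n A h
  have hℓ : ℓ.Prime := Fact.out
  obtain ⟨e, he, hmat1, hmat2⟩ := stmt_IW_Mat ℓ n A h.det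
  have hpos : ∀ j : ℕ, 0 < e * ℓ ^ j := fun j => Nat.mul_pos he (pow_pos hℓ.pos j)
  have hpow : ∀ j : ℕ, (φ.toIntLinearMap ^ e) ^ (ℓ ^ j) = φ.toIntLinearMap ^ (e * ℓ ^ j) :=
    fun j => (pow_mul _ _ _).symm
  -- the valuations
  have hval : ∀ j : ℕ, (1 - A ^ (e * ℓ ^ j)).det.natAbs.factorization ℓ =
      (1 - A ^ (e * ℓ ^ 0)).det.natAbs.factorization ℓ + n * j := by
    intro j
    induction j with
    | zero => simp
    | succ j ih =>
      obtain ⟨u, hu, hdet⟩ := hmat2 j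
      rw [factorization_of_eq (det_natAbs_ne_zero h (hpos j)) hu hdet, ih]
      ring
  refine ⟨e, (1 - A ^ (e * ℓ ^ 0)).det.natAbs.factorization ℓ, he, ?_, ?_, ?_⟩
  · intro j
    show Finite ↥(fixE ((φ.toIntLinearMap ^ e) ^ (ℓ ^ j)) ⊓ prim G ℓ)
    rw [hpow j]
    exact finite_prim_fixE h (hpos j)
  · intro j
    show Nat.card ↥(fixE ((φ.toIntLinearMap ^ e) ^ (ℓ ^ j)) ⊓ prim G ℓ) = _
    rw [hpow j, card_prim_fixE h (hpos j), hval j]
  · intro x hx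
    obtain ⟨m, hm, hxm⟩ := h.fix x
    -- `m = ℓ^j * m'`
    obtain ⟨j, m', hm', hmeq⟩ := Nat.exists_eq_pow_mul_and_not_dvd hm.ne' ℓ hℓ.ne_one
    refine ⟨j, ?_⟩
    rw [hpow j]
    have hpos' : 0 < e * m' * ℓ ^ j := by
      refine Nat.mul_pos (Nat.mul_pos he ?_) (pow_pos hℓ.pos j)
      rcases Nat.eq_zero_or_pos m' with h0 | h0
      · exact absurd (h0 ▸ dvd_zero ℓ) hm'
      · exact h0
    -- `x` is fixed by `φ^(e m' ℓ^j)`
    have hx1 : x ∈ fixE (φ.toIntLinearMap ^ (e * m' * ℓ ^ j)) := by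
      have h1 : x ∈ fixE (φ.toIntLinearMap ^ m) := (mem_fixE_pow φ m x).2 hxm
      have h2 := fixE_pow_le φ.toIntLinearMap m e h1
      have h3 : m * e = e * m' * ℓ ^ j := by rw [hmeq]; ring
      rwa [h3] at h2
    -- the two primary parts
    have hle : fixE (φ.toIntLinearMap ^ (e * ℓ ^ j)) ⊓ prim G ℓ ≤
        fixE (φ.toIntLinearMap ^ (e * m' * ℓ ^ j)) ⊓ prim G ℓ := by
      refine inf_le_inf_right _ ?_
      have h4 := fixE_pow_le φ.toIntLinearMap (e * ℓ ^ j) m'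
      have h5 : e * ℓ ^ j * m' = e * m' * ℓ ^ j := by ring
      rwa [h5] at h4
    have hcard : Nat.card ↥(fixE (φ.toIntLinearMap ^ (e * m' * ℓ ^ j)) ⊓ prim G ℓ) =
        Nat.card ↥(fixE (φ.toIntLinearMap ^ (e * ℓ ^ j)) ⊓ prim G ℓ) := by
      rw [card_prim_fixE h hpos', card_prim_fixE h (hpos j)]
      obtain ⟨u, hu, hdet⟩ := hmat1 m' j hm'
      have := factorization_of_eq (ℓ := ℓ) (a := (1 - A ^ (e * ℓ ^ j)).det)
        (b := (1 - A ^ (e * m' * ℓ ^ j)).det) (c := 0) (det_natAbs_ne_zero h (hpos j)) hu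
        (by rw [hdet, pow_zero, mul_one])
      rw [this, add_zero]
    have hfin := finite_prim_fixE h hpos'
    have heq : fixE (φ.toIntLinearMap ^ (e * ℓ ^ j)) ⊓ prim G ℓ =
        fixE (φ.toIntLinearMap ^ (e * m' * ℓ ^ j)) ⊓ prim G ℓ := by
      exact AddSubgroup.eq_of_le_of_card_ge hle hcard.le
    have hx2 : x ∈ fixE (φ.toIntLinearMap ^ (e * m' * ℓ ^ j)) ⊓ prim G ℓ := ⟨hx1, hx⟩
    rw [← heq] at hx2
    exact hx2.1

end Fermat.Agent.S27.IW.H64
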