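/-
S27, package IW (helper68): from the growth of the fixed points to the torsion, part 2:
the two sandwiches `G[ℓ^(k+1)] ≤ T_{j₁+k}` and `T_{j₂+i} ≤ G[ℓ^(a₀+i)]`, the bound and the count.
-/
import Fermat.Agent.S27.IW.H68_Growth

set_option autoImplicit false
set_option linter.unusedSectionVars false
set_option linter.unusedVariables false
set_option linter.style.haveILetI false

open Finset

namespace Fermat.Agent.S27.IW.H68

variable {G : Type*} [AddCommGroup G] {ℓ : ℕ} {Φ : Module.End ℤ G} {n c₀ : ℕ}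

theorem sub_one_apply_eq_zero (Ψ : Module.End ℤ G) (x : G) : (Ψ - 1) x = 0 ↔ Ψ x = x := by
  rw [LinearMap.sub_apply, Module.End.one_apply, sub_eq_zero]

/-- the step of the lower sandwich -/
theorem tors_step (hℓ : ℓ.Prime) (Ψ : Module.End ℤ G) (k : ℕ)
    (h : tors G (ℓ ^ (k + 1)) ≤ fixE Ψ) : tors G (ℓ ^ (k + 2)) ≤ fixE (Ψ ^ ℓ) := by
  intro x hx
  rw [mem_tors] at hx
  rw [mem_fixE]
  have h1 : ℓ • x ∈ tors G (ℓ ^ (k + 1)) := by
    rw [mem_tors, ← mul_smul, ← pow_succ]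
    exact hx
  have h2 : ℓ • (Ψ - 1) x = 0 := by
    rw [← end_nsmul, sub_one_apply_eq_zero]
    exact h h1
  have h3 : (Ψ - 1) x ∈ tors G (ℓ ^ (k + 1)) := by
    have h4 : (Ψ - 1) x ∈ tors G (ℓ ^ 1) := by
      rw [mem_tors, pow_one]
      exact h2
    exact tors_mono ℓ (Nat.succ_le_succ (Nat.zero_le k)) h4
  have h5 : (Ψ - 1) ((Ψ - 1) x) = 0 := (sub_one_apply_eq_zero Ψ _).2 (h h3)
  rw [pow_prime_apply ℓ hℓ Ψ x h2]
  obtain ⟨d, hd⟩ := Nat.exists_eq_add_of_le hℓ.two_le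
  have h6 : ((Ψ - 1) ^ ℓ) x = 0 := by
    rw [hd, add_comm, pow_add, pow_two, Module.End.mul_apply, Module.End.mul_apply, h5, map_zero]
  rw [h6, add_zero]

/-- the lower sandwich -/
theorem Growth.tors_pow_le (hℓ : ℓ.Prime) (h : Growth ℓ Φ n c₀) :
    ∃ j₁, ∀ k, tors G (ℓ ^ (k + 1)) ≤ fixE (Φ ^ (ℓ ^ (j₁ + k))) := by
  obtain ⟨j₁, hj₁⟩ := h.tors_le hℓ
  refine ⟨j₁, ?_⟩
  intro k
  induction k with
  | zero =>
    intro x hx
    apply hj₁
    rw [mem_tors] at hx ⊢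
    rw [zero_add, pow_one] at hx
    exact hx
  | succ k ih =>
    have h1 := tors_step hℓ _ k ih
    rw [← pow_mul, ← pow_succ] at h1
    exact h1

theorem Growth.tors_pow_le_Tj (hℓ : ℓ.Prime) (h : Growth ℓ Φ n c₀) :
    ∃ j₁, ∀ k, tors G (ℓ ^ (k + 1)) ≤ Tj ℓ Φ (j₁ + k) := by
  obtain ⟨j₁, hj₁⟩ := h.tors_pow_le hℓ
  exact ⟨j₁, fun k => le_inf (hj₁ k) (tors_le_prim ℓ (k + 1))⟩

/-- **IW-FIN** from the growth -/
theorem Growth.tors_finite (hℓ : ℓ.Prime) (h : Growth ℓ Φ n c₀) (k : ℕ) :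
    Finite ↥(tors G (ℓ ^ k)) := by
  obtain ⟨j₁, hj₁⟩ := h.tors_pow_le_Tj hℓ
  haveI := h.fin (j₁ + k)
  have h1 : tors G (ℓ ^ k) ≤ Tj ℓ Φ (j₁ + k) := (tors_mono ℓ (Nat.le_succ k)).trans (hj₁ k)
  exact Finite.of_injective (AddSubgroup.inclusion h1) (AddSubgroup.inclusion_injective h1)

/-- **IW-BOUND** from the growth -/
theorem Growth.tors_card_le (hℓ : ℓ.Prime) (h : Growth ℓ Φ n c₀) :
    ∃ C : ℕ, ∀ k, Nat.card ↥(tors G (ℓ ^ k)) ≤ C * ℓ ^ (n * k) := by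
  obtain ⟨j₁, hj₁⟩ := h.tors_pow_le_Tj hℓ
  refine ⟨ℓ ^ (c₀ + n * j₁), ?_⟩
  intro k
  haveI := h.fin (j₁ + k)
  have h1 : tors G (ℓ ^ k) ≤ Tj ℓ Φ (j₁ + k) := (tors_mono ℓ (Nat.le_succ k)).trans (hj₁ k)
  have h2 := AddSubgroup.card_le_of_le h1
  rw [h.card] at h2
  rw [← pow_add]
  have h3 : c₀ + n * (j₁ + k) = c₀ + n * j₁ + n * k := by ring
  rw [← h3]
  exact h2

/-- the key step of the upper sandwich -/
theorem smul_fix (hℓ : ℓ.Prime) (Ψ : Module.End ℤ G) (h2 : tors G (ℓ ^ 2) ≤ fixE Ψ)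
    (x : G) (hx : x ∈ prim G ℓ) (hfix : (Ψ ^ ℓ) x = x) : Ψ (ℓ • x) = ℓ • x := by
  set D := Ψ - 1 with hD
  set Q : Module.End ℤ G := ∑ i ∈ range ℓ, ∑ k ∈ range i, Ψ ^ k with hQ
  have hN : (∑ i ∈ range ℓ, Ψ ^ i) = (ℓ : Module.End ℤ G) + Q * D := by
    have h1 : (∑ i ∈ range ℓ, Ψ ^ i) - (ℓ : Module.End ℤ G) = Q * D := by
      have h3 : (ℓ : Module.End ℤ G) = ∑ i ∈ range ℓ, (1 : Module.End ℤ G) := by
        rw [sum_const, card_range, nsmul_one]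
      rw [h3, ← sum_sub_distrib, hQ, sum_mul]
      apply sum_congr rfl
      intro i _
      rw [hD, geom_sum_mul]
    rw [← h1]
    abel
  have hND : (∑ i ∈ range ℓ, Ψ ^ i) * D = Ψ ^ ℓ - 1 := geom_sum_mul Ψ ℓ
  set z := D x with hz
  have hz0 : (ℓ : Module.End ℤ G) z + Q (D z) = 0 := by
    have h3 : ((∑ i ∈ range ℓ, Ψ ^ i) * D) x = 0 := by
      rw [hND, sub_one_apply_eq_zero]
      exact hfix
    rw [Module.End.mul_apply, hN, LinearMap.add_apply, Module.End.mul_apply] at h3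
    exact h3
  have hcast : ∀ y : G, (ℓ : Module.End ℤ G) y = ℓ • y := by
    intro y
    rw [← Nat.cast_smul_eq_nsmul ℤ]
    simp
  rw [hcast] at hz0
  have hzl : ℓ • z = -Q (D z) := eq_neg_of_add_eq_zero_left hz0
  have key : ∀ b : ℕ, (ℓ ^ b) • z = 0 → ℓ • z = 0 := by
    intro b
    induction b with
    | zero =>
      intro hb
      rw [pow_zero, one_smul] at hb
      rw [hb, smul_zero]
    | succ b ih =>
      intro hb
      rcases Nat.eq_zero_or_pos b with rfl | hbpos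
      · rw [zero_add, pow_one] at hb
        exact hb
      · obtain ⟨b', rfl⟩ := Nat.exists_eq_succ_of_ne_zero hbpos.ne'
        apply ih
        have h3 : (ℓ ^ b') • z ∈ tors G (ℓ ^ 2) := by
          rw [mem_tors, ← mul_smul, ← pow_add, add_comm]
          exact hb
        have h4 : D ((ℓ ^ b') • z) = 0 := (sub_one_apply_eq_zero Ψ _).2 (h2 h3)
        rw [end_nsmul] at h4
        have h5 : (ℓ ^ b') • Q (D z) = 0 := by
          rw [← end_nsmul, h4, map_zero]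
        rw [pow_succ, mul_smul, hzl, smul_neg, h5, neg_zero]
  obtain ⟨b, hb⟩ := hx
  have hzb : (ℓ ^ b) • z = 0 := by
    rw [hz, ← end_nsmul, hb, map_zero]
  have h6 := key b hzb
  rw [hz, ← end_nsmul] at h6
  exact (sub_one_apply_eq_zero Ψ _).1 h6

theorem smul_mem_Tj (hℓ : ℓ.Prime) (j : ℕ) (h2 : tors G (ℓ ^ 2) ≤ fixE (Φ ^ (ℓ ^ j)))
    (x : G) (hx : x ∈ Tj ℓ Φ (j + 1)) : ℓ • x ∈ Tj ℓ Φ j := by
  obtain ⟨h3, h4⟩ := hx
  refine ⟨?_, ?_⟩
  · apply smul_fix hℓ _ h2 x h4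
    rw [← pow_mul, ← pow_succ]
    exact h3
  · exact (prim G ℓ).nsmul_mem h4 ℓ

/-- the upper sandwich -/
theorem Growth.Tj_le_tors (hℓ : ℓ.Prime) (h : Growth ℓ Φ n c₀) :
    ∃ j₂ a₀, ∀ i, Tj ℓ Φ (j₂ + i) ≤ tors G (ℓ ^ (a₀ + i)) := by
  obtain ⟨j₁, hj₁⟩ := h.tors_pow_le hℓ
  refine ⟨j₁ + 1, c₀ + n * (j₁ + 1), ?_⟩
  intro i
  induction i with
  | zero =>
    intro x hx
    haveI := h.fin (j₁ + 1)
    have h1 : Nat.card ↥(Tj ℓ Φ (j₁ + 1)) • (⟨x, hx⟩ : ↥(Tj ℓ Φ (j₁ + 1))) = 0 :=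
      card_nsmul_eq_zero'
    rw [h.card] at h1
    have h2 := congrArg (Subtype.val : ↥(Tj ℓ Φ (j₁ + 1)) → G) h1
    rw [AddSubgroup.coe_nsmul] at h2
    exact h2
  | succ i ih =>
    intro x hx
    have h2 : tors G (ℓ ^ 2) ≤ fixE (Φ ^ (ℓ ^ (j₁ + 1 + i))) :=
      (hj₁ 1).trans (fixE_mono ℓ Φ (Nat.le_add_right _ _))
    have h3 := ih (smul_mem_Tj hℓ _ h2 x hx)
    rw [mem_tors] at h3 ⊢
    rw [← add_assoc, pow_succ, mul_smul]
    exact h3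

/-- multiplication by `ℓ` from `G[ℓ^(k+1)]` to `G[ℓ^k]` -/
def mulL (G : Type*) [AddCommGroup G] (ℓ k : ℕ) : ↥(tors G (ℓ ^ (k + 1))) →+ ↥(tors G (ℓ ^ k)) where
  toFun x := ⟨ℓ • (x : G), by
    rw [mem_tors, ← mul_smul, ← pow_succ]
    exact x.2⟩
  map_zero' := by
    apply Subtype.ext
    simp
  map_add' := by
    intro a b
    apply Subtype.ext
    simp

theorem mulL_surjective (hdiv : ∀ x : G, ∃ y : G, ℓ • y = x) (k : ℕ) :
    Function.Surjective (mulL G ℓ k) := by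
  rintro ⟨y, hy⟩
  obtain ⟨x, hx⟩ := hdiv y
  refine ⟨⟨x, ?_⟩, Subtype.ext hx⟩
  rw [mem_tors, pow_succ, mul_smul, hx]
  exact hy

/-- the kernel of `mulL` is `G[ℓ]` -/
def kerEquiv (G : Type*) [AddCommGroup G] (ℓ k : ℕ) : ↥(mulL G ℓ k).ker ≃ ↥(tors G ℓ) where
  toFun x := ⟨((x : ↥(tors G (ℓ ^ (k + 1)))) : G), by
    have h := x.2
    rw [AddMonoidHom.mem_ker] at h
    exact congrArg Subtype.val h⟩
  invFun y := ⟨⟨(y : G), by
    have h : tors G (ℓ ^ 1) ≤ tors G (ℓ ^ (k + 1)) := tors_mono ℓ (Nat.succ_le_succ (Nat.zero_le k))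
    apply h
    rw [mem_tors, pow_one]
    exact y.2⟩, by
    rw [AddMonoidHom.mem_ker]
    apply Subtype.ext
    exact y.2⟩
  left_inv x := rfl
  right_inv y := rfl

theorem card_tors_succ (hdiv : ∀ x : G, ∃ y : G, ℓ • y = x) (k : ℕ) :
    Nat.card ↥(tors G (ℓ ^ (k + 1))) = Nat.card ↥(tors G (ℓ ^ k)) * Nat.card ↥(tors G ℓ) := by
  rw [AddSubgroup.card_eq_card_quotient_mul_card_addSubgroup (mulL G ℓ k).ker,
    Nat.card_congr (kerEquiv G ℓ k),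
    Nat.card_congr (QuotientAddGroup.quotientKerEquivOfSurjective (mulL G ℓ k)
      (mulL_surjective hdiv k)).toEquiv]

theorem card_tors_pow (hdiv : ∀ x : G, ∃ y : G, ℓ • y = x) (k : ℕ) :
    Nat.card ↥(tors G (ℓ ^ k)) = Nat.card ↥(tors G ℓ) ^ k := by
  induction k with
  | zero =>
    rw [pow_zero, pow_zero]
    have h1 : ∀ x : ↥(tors G 1), x = 0 := by
      rintro ⟨x, hx⟩
      apply Subtype.ext
      rw [mem_tors, one_smul] at hx
      exact hx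
    haveI : Subsingleton ↥(tors G 1) := ⟨fun a b => (h1 a).trans (h1 b).symm⟩
    exact Nat.card_unique
  | succ k ih =>
    rw [card_tors_succ hdiv k, ih, pow_succ]

/-- **IW-CARD** from the growth -/
theorem Growth.tors_card (hℓ : ℓ.Prime) (h : Growth ℓ Φ n c₀)
    (hdiv : ∀ x : G, ∃ y : G, ℓ • y = x) (k : ℕ) :
    Nat.card ↥(tors G (ℓ ^ k)) = ℓ ^ (n * k) := by
  obtain ⟨j₁, hj₁⟩ := h.tors_pow_le_Tj hℓ
  obtain ⟨j₂, a₀, hj₂⟩ := h.Tj_le_tors hℓ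
  -- `#G[ℓ]` is a power of `ℓ`
  have hR : ∃ r, Nat.card ↥(tors G ℓ) = ℓ ^ r := by
    haveI := h.fin (j₁ + 0)
    have h1 : tors G ℓ ≤ Tj ℓ Φ (j₁ + 0) := by
      intro x hx
      apply hj₁ 0
      rw [mem_tors] at hx ⊢
      rw [zero_add, pow_one]
      exact hx
    have h2 := AddSubgroup.card_dvd_of_le h1
    rw [h.card] at h2
    obtain ⟨r, _, hr⟩ := (Nat.dvd_prime_pow hℓ).1 h2
    exact ⟨r, hr⟩
  obtain ⟨r, hr⟩ := hR
  have hcard : ∀ k, Nat.card ↥(tors G (ℓ ^ k)) = ℓ ^ (r * k) := by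
    intro k
    rw [card_tors_pow hdiv k, hr, ← pow_mul]
  -- upper inequality
  have hup : ∀ k, r * (k + 1) ≤ c₀ + n * (j₁ + k) := by
    intro k
    haveI := h.fin (j₁ + k)
    have h2 := AddSubgroup.card_le_of_le (hj₁ k)
    rw [h.card, hcard] at h2
    exact (Nat.pow_le_pow_iff_right hℓ.one_lt).1 h2
  -- lower inequality
  have hlow : ∀ i, c₀ + n * (j₂ + i) ≤ r * (a₀ + i) := by
    intro i
    haveI := h.tors_finite hℓ (a₀ + i)
    have h2 := AddSubgroup.card_le_of_le (hj₂ i)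
    rw [h.card, hcard] at h2
    exact (Nat.pow_le_pow_iff_right hℓ.one_lt).1 h2
  have hrn : r = n := by
    apply le_antisymm
    · by_contra hcon
      have h1 : n + 1 ≤ r := by omega
      have h2 := hup (c₀ + n * j₁)
      have h3 : (n + 1) * (c₀ + n * j₁ + 1) ≤ r * (c₀ + n * j₁ + 1) :=
        Nat.mul_le_mul_right _ h1
      nlinarith
    · by_contra hcon
      have h1 : r + 1 ≤ n := by omega
      have h2 := hlow (r * a₀ + 1)
      have h3 : (r + 1) * (j₂ + (r * a₀ + 1)) ≤ n * (j₂ + (r * a₀ + 1)) :=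
        Nat.mul_le_mul_right _ h1
      nlinarith
  rw [hcard, hrn]

end Fermat.Agent.S27.IW.H68
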