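/-
S27, package IW (helper68): the three outputs from the leaf IW-GROWTH.
-/
import Fermat.Agent.S27.IW.H68_Tors
import Fermat.Agent.S27.IW.H68_Defs2

set_option autoImplicit false

namespace Fermat.Agent.S27.IW.H68

universe u

theorem stmt_IW_Fin_of (hG : Stmt_IW_Growth.{u}) : Stmt_IW_Fin.{u} := by
  intro ℓ hℓ G _ φ n A h k
  obtain ⟨e, c₀, _, hgr⟩ := hG ℓ G φ n A h
  exact hgr.tors_finite hℓ.out k

theorem stmt_IW_Bound_of (hG : Stmt_IW_Growth.{u}) : Stmt_IW_Bound.{u} := by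
  intro ℓ hℓ G _ φ n A h
  obtain ⟨e, c₀, _, hgr⟩ := hG ℓ G φ n A h
  exact hgr.tors_card_le hℓ.out

theorem stmt_IW_Card_of (hG : Stmt_IW_Growth.{u}) : Stmt_IW_Card.{u} := by
  intro ℓ hℓ G _ φ n A h hdiv k
  obtain ⟨e, c₀, _, hgr⟩ := hG ℓ G φ n A h
  exact hgr.tors_card hℓ.out hdiv k

end Fermat.Agent.S27.IW.H68
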