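/-
S27, package IW (owner helper68): the unconditional outputs.
`stmt_IW_Fin`, `stmt_IW_Bound`, `stmt_IW_Card` (leaves IW-MAT, IW-SYL, IW-GROWTH by helper64).
-/
import Fermat.Agent.S27.IW.H68_Final
import Fermat.Agent.S27.IW.H64_Growth

set_option autoImplicit false

namespace Fermat.Agent.S27.IW.H68

universe u

/-- **IW-FIN**: the `ℓ^k`-torsion is finite. -/
theorem stmt_IW_Fin : Stmt_IW_Fin.{u} := stmt_IW_Fin_of H64.stmt_IW_Growth

/-- **IW-BOUND**: `#G[ℓ^k] ≤ C ℓ^(nk)`. -/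
theorem stmt_IW_Bound : Stmt_IW_Bound.{u} := stmt_IW_Bound_of H64.stmt_IW_Growth

/-- **IW-CARD**: `#G[ℓ^k] = ℓ^(nk)` if `G` is `ℓ`-divisible. -/
theorem stmt_IW_Card : Stmt_IW_Card.{u} := stmt_IW_Card_of H64.stmt_IW_Growth

end Fermat.Agent.S27.IW.H68
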