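/-
S27 (row 26), package IW-A (helper45): pure group theory.

`T` an `ℓ`-primary, `ℓ`-divisible abelian group with an additive endomorphism `ψ` such that
the groups `G_j = T^{ψ^(ℓ^j)}` are finite of order `ℓ^(C + n j)` and exhaust `T`.
Then `#T[ℓ^k] = ℓ^(n k)` for every `k`.   (Application: `T = Pic⁰(F̃)[ℓ^∞]`, `n = 2 g`.)

Main results: `card_tor_pow_of_growth` (for `ℓ`-primary `T`).
-/
import Mathlib

set_option autoImplicit false

namespace Fermat.Agent.S27.IW.H45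

open Finset

section Counting

/-- For a surjective homomorphism, `#A = #ker · #B`. -/
theorem card_eq_ker_mul_of_surj {A B : Type*} [AddCommGroup A] [AddCommGroup B] (f : A →+ B)
    (hf : Function.Surjective f) : Nat.card A = Nat.card f.ker * Nat.card B := by
  rw [AddSubgroup.card_eq_card_quotient_mul_card_addSubgroup f.ker,
    Nat.card_congr (QuotientAddGroup.quotientKerEquivOfSurjective f hf).toEquiv, mul_comm]

/-- A proper subgroup of a finite group has at most half of the elements. -/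
theorem two_mul_card_le_of_lt {A : Type*} [AddCommGroup A] (H K : AddSubgroup A) (hK : Finite K)
    (hle : H ≤ K) (hne : H ≠ K) : 2 * Nat.card H ≤ Nat.card K := by
  have hdvd : Nat.card H ∣ Nat.card K := AddSubgroup.card_dvd_of_le hle
  obtain ⟨c, hc⟩ := hdvd
  have hKpos : 0 < Nat.card K := Nat.card_pos
  have hc0 : c ≠ 0 := by
    rintro rfl
    simp at hc
    omega
  have hc1 : c ≠ 1 := by
    rintro rfl
    apply hne
    have hcard : Nat.card H = Nat.card K := by simpa using hc.symm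
    exact AddSubgroup.eq_of_le_of_card_ge hle (le_of_eq hcard.symm)
  have : 2 ≤ c := by omega
  calc 2 * Nat.card H ≤ c * Nat.card H := Nat.mul_le_mul_right _ this
    _ = Nat.card K := by rw [hc, mul_comm]

/-- Linear growth is beaten by `2 ^ j`. -/
theorem exists_lin_lt_two_pow (a b : ℕ) : ∃ j, a + b * j < 2 ^ j := by
  refine ⟨2 * (a + 2 * b + 1), ?_⟩
  set m := a + 2 * b + 1 with hm
  have h1 : m < 2 ^ m := Nat.lt_two_pow_self
  have h2 : m * m < 2 ^ m * 2 ^ m := Nat.mul_lt_mul'' h1 h1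
  have h3 : (2 : ℕ) ^ (2 * m) = 2 ^ m * 2 ^ m := by rw [two_mul, pow_add]
  rw [h3]
  have h4 : a + b * (2 * m) ≤ m * m := by
    have : a + b * (2 * m) ≤ (a + 2 * b) * m := by
      have hm1 : 1 ≤ m := by omega
      nlinarith
    calc a + b * (2 * m) ≤ (a + 2 * b) * m := this
      _ ≤ m * m := Nat.mul_le_mul_right _ (by omega)
  omega

end Counting

section EndRing

variable {T : Type*} [AddCommGroup T]

/-- `(1 + D)^k = 1 + k D + Q D²`. -/
theorem exists_binom_two (D : Module.End ℤ T) (k : ℕ) :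
    ∃ Q : Module.End ℤ T, (1 + D) ^ k = 1 + (k : Module.End ℤ T) * D + Q * (D * D) := by
  induction k with
  | zero => exact ⟨0, by simp⟩
  | succ k ih =>
    obtain ⟨Q, hQ⟩ := ih
    refine ⟨Q + k + Q * D, ?_⟩
    rw [pow_succ, hQ]
    push_cast
    noncomm_ring

/-- Freshman's dream on the `ℓ`-torsion. -/
theorem one_add_pow_prime_apply (ℓ : ℕ) (hℓ : ℓ.Prime) (D : Module.End ℤ T) (x : T)
    (hx : ℓ • x = 0) : ((1 + D) ^ ℓ) x = x + (D ^ ℓ) x := by
  obtain ⟨n, rfl⟩ : ∃ n, ℓ = n + 1 := ⟨ℓ - 1, by have := hℓ.pos; omega⟩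
  rw [(Commute.one_left D).add_pow (n + 1)]
  rw [LinearMap.sum_apply]
  rw [Finset.sum_range_succ, Finset.sum_range_succ']
  have hmid : ∑ k ∈ range n, (1 ^ (k + 1) * D ^ (n + 1 - (k + 1)) *
      (((n + 1).choose (k + 1) : ℕ) : Module.End ℤ T)) x = 0 := by
    apply Finset.sum_eq_zero
    intro k hk
    have hk' : k < n := Finset.mem_range.mp hk
    have hdvd : (n + 1) ∣ (n + 1).choose (k + 1) :=
      hℓ.dvd_choose_self (by omega) (by omega)
    obtain ⟨c, hc⟩ := hdvd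
    simp only [one_pow, one_mul, Module.End.mul_apply, Module.End.natCast_apply]
    rw [hc, mul_comm, mul_smul, hx, smul_zero, map_zero]
  rw [hmid]
  simp [add_comm]

/-- The `m`-torsion subgroup. -/
def tor (T : Type*) [AddCommGroup T] (m : ℕ) : AddSubgroup T where
  carrier := {x | m • x = 0}
  zero_mem' := by simp
  add_mem' := by
    intro a b ha hb
    simp only [Set.mem_ofPred_eq] at ha hb ⊢
    rw [smul_add, ha, hb, add_zero]
  neg_mem' := by
    intro a ha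
    simp only [Set.mem_ofPred_eq] at ha ⊢
    rw [smul_neg, ha, neg_zero]

theorem mem_tor {m : ℕ} {x : T} : x ∈ tor T m ↔ m • x = 0 := Iff.rfl

/-- The fixed points of an endomorphism. -/
def fixG (f : Module.End ℤ T) : AddSubgroup T where
  carrier := {x | f x = x}
  zero_mem' := by simp
  add_mem' := by
    intro a b ha hb
    simp only [Set.mem_ofPred_eq] at ha hb ⊢
    rw [map_add, ha, hb]
  neg_mem' := by
    intro a ha
    simp only [Set.mem_ofPred_eq] at ha ⊢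
    rw [map_neg, ha]

theorem mem_fixG {f : Module.End ℤ T} {x : T} : x ∈ fixG f ↔ f x = x := Iff.rfl

theorem map_nsmul_end (f : Module.End ℤ T) (m : ℕ) (x : T) : f (m • x) = m • f x :=
  map_nsmul f m x

theorem tor_stable (f : Module.End ℤ T) {m : ℕ} {x : T} (hx : x ∈ tor T m) : f x ∈ tor T m := by
  rw [mem_tor] at hx ⊢
  rw [← map_nsmul_end, hx, map_zero]

theorem tor_mono {a b : ℕ} (h : a ∣ b) : tor T a ≤ tor T b := by
  intro x hx
  obtain ⟨c, rfl⟩ := h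
  rw [mem_tor] at hx ⊢
  rw [mul_comm, mul_smul, hx, smul_zero]

theorem fixG_le_pow (f : Module.End ℤ T) (k : ℕ) : fixG f ≤ fixG (f ^ k) := by
  intro x hx
  rw [mem_fixG] at hx ⊢
  induction k with
  | zero => simp
  | succ k ih => rw [pow_succ, Module.End.mul_apply, hx, ih]

/-- If two endomorphisms agree on the `m`-torsion, so do their powers. -/
theorem pow_apply_congr_tor (A B : Module.End ℤ T) (m : ℕ)
    (h : ∀ y ∈ tor T m, A y = B y) (i : ℕ) : ∀ y ∈ tor T m, (A ^ i) y = (B ^ i) y := by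
  induction i with
  | zero => intro y _; simp
  | succ i ih =>
    intro y hy
    rw [pow_succ, pow_succ, Module.End.mul_apply, Module.End.mul_apply, h y hy]
    exact ih _ (tor_stable B hy)

/-- On the `ℓ`-torsion, `ψ^(ℓ^j) - 1 = (ψ - 1)^(ℓ^j)`. -/
theorem pow_prime_pow_apply_tor (ℓ : ℕ) (hℓ : ℓ.Prime) (ψ : Module.End ℤ T) (j : ℕ) :
    ∀ x ∈ tor T ℓ, (ψ ^ (ℓ ^ j)) x = x + ((ψ - 1) ^ (ℓ ^ j)) x := by
  induction j with
  | zero =>
    intro x _
    simp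
  | succ j ih =>
    intro x hx
    have h1 : ψ ^ (ℓ ^ (j + 1)) = (1 + (ψ ^ (ℓ ^ j) - 1)) ^ ℓ := by
      rw [pow_succ, pow_mul]
      congr 1
      abel
    rw [h1, one_add_pow_prime_apply ℓ hℓ _ x hx]
    congr 1
    have h2 : ∀ y ∈ tor T ℓ, (ψ ^ (ℓ ^ j) - 1) y = ((ψ - 1) ^ (ℓ ^ j)) y := by
      intro y hy
      rw [LinearMap.sub_apply, ih y hy, Module.End.one_apply, add_sub_cancel_left]
    rw [pow_apply_congr_tor _ _ ℓ h2 ℓ x hx, ← pow_mul, ← pow_succ]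

/-- The chain `W k = T[ℓ] ∩ ker N^k`. -/
def chainW (ℓ : ℕ) (N : Module.End ℤ T) (k : ℕ) : AddSubgroup T where
  carrier := {x | ℓ • x = 0 ∧ (N ^ k) x = 0}
  zero_mem' := by simp
  add_mem' := by
    rintro a b ⟨ha, ha'⟩ ⟨hb, hb'⟩
    exact ⟨by rw [smul_add, ha, hb, add_zero], by rw [map_add, ha', hb', add_zero]⟩
  neg_mem' := by
    rintro a ⟨ha, ha'⟩
    exact ⟨by rw [smul_neg, ha, neg_zero], by rw [map_neg, ha', neg_zero]⟩

theorem mem_chainW {ℓ : ℕ} {N : Module.End ℤ T} {k : ℕ} {x : T} :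
    x ∈ chainW ℓ N k ↔ ℓ • x = 0 ∧ (N ^ k) x = 0 := Iff.rfl

theorem chainW_mono (ℓ : ℕ) (N : Module.End ℤ T) (k : ℕ) : chainW ℓ N k ≤ chainW ℓ N (k + 1) := by
  rintro x ⟨hx, hx'⟩
  refine ⟨hx, ?_⟩
  rw [pow_succ', Module.End.mul_apply, hx', map_zero]

theorem chainW_mono' (ℓ : ℕ) (N : Module.End ℤ T) {k k' : ℕ} (h : k ≤ k') :
    chainW ℓ N k ≤ chainW ℓ N k' := by
  induction h with
  | refl => exact le_rfl
  | step _ ih => exact ih.trans (chainW_mono ℓ N _)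

theorem chainW_stable (ℓ : ℕ) (N : Module.End ℤ T) (k : ℕ)
    (h : chainW ℓ N k = chainW ℓ N (k + 1)) : chainW ℓ N (k + 1) = chainW ℓ N (k + 2) := by
  apply le_antisymm (chainW_mono ℓ N (k + 1))
  rintro x ⟨hx, hx'⟩
  have h1 : N x ∈ chainW ℓ N (k + 1) := by
    refine ⟨by rw [← map_nsmul_end, hx, map_zero], ?_⟩
    rw [← Module.End.mul_apply, ← pow_succ]
    exact hx'
  rw [← h] at h1
  refine ⟨hx, ?_⟩
  rw [pow_succ, Module.End.mul_apply]
  exact h1.2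

theorem chainW_stable' (ℓ : ℕ) (N : Module.End ℤ T) (k : ℕ)
    (h : chainW ℓ N k = chainW ℓ N (k + 1)) (m : ℕ) : chainW ℓ N (k + m) = chainW ℓ N k := by
  induction m generalizing k with
  | zero => rfl
  | succ m ih =>
    have h2 := chainW_stable ℓ N k h
    have := ih (k + 1) h2
    rw [show k + (m + 1) = k + 1 + m by omega, this, h]

/-- If the chain is strictly increasing up to `K`, then `#W_K ≥ 2^K`. -/
theorem two_pow_le_card_chainW (ℓ : ℕ) (N : Module.End ℤ T) (K : ℕ)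
    (hfin : Finite (chainW ℓ N K)) (hne : ∀ k < K, chainW ℓ N k ≠ chainW ℓ N (k + 1)) :
    2 ^ K ≤ Nat.card (chainW ℓ N K) := by
  induction K with
  | zero =>
    simp only [pow_zero]
    exact Nat.card_pos
  | succ K ih =>
    have hfinK : Finite (chainW ℓ N K) :=
      Finite.of_injective (AddSubgroup.inclusion (chainW_mono ℓ N K))
        (AddSubgroup.inclusion_injective _)
    have h1 := ih hfinK (fun k hk => hne k (by omega))
    have h2 := two_mul_card_le_of_lt _ _ hfin (chainW_mono ℓ N K) (hne K (by omega))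
    calc 2 ^ (K + 1) = 2 * 2 ^ K := by rw [pow_succ, mul_comm]
      _ ≤ 2 * Nat.card (chainW ℓ N K) := Nat.mul_le_mul_left _ h1
      _ ≤ _ := h2

/-- `T[ℓ] ∩ T^{ψ^(ℓ^j)} = W (ℓ^j)` for `N = ψ - 1`. -/
theorem chainW_prime_pow (ℓ : ℕ) (hℓ : ℓ.Prime) (ψ : Module.End ℤ T) (j : ℕ) (x : T) :
    x ∈ chainW ℓ (ψ - 1) (ℓ ^ j) ↔ ℓ • x = 0 ∧ (ψ ^ (ℓ ^ j)) x = x := by
  rw [mem_chainW]
  constructor
  · rintro ⟨hx, hx'⟩
    refine ⟨hx, ?_⟩
    rw [pow_prime_pow_apply_tor ℓ hℓ ψ j x hx, hx', add_zero]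
  · rintro ⟨hx, hx'⟩
    refine ⟨hx, ?_⟩
    have := pow_prime_pow_apply_tor ℓ hℓ ψ j x hx
    rw [hx'] at this
    exact (left_eq_add.mp this)

theorem fixG_prime_pow_mono (ℓ : ℕ) (ψ : Module.End ℤ T) {j j' : ℕ} (h : j ≤ j') :
    fixG (ψ ^ (ℓ ^ j)) ≤ fixG (ψ ^ (ℓ ^ j')) := by
  obtain ⟨d, rfl⟩ := Nat.exists_eq_add_of_le h
  rw [pow_add, pow_mul]
  exact fixG_le_pow _ _

/-- Counting along multiplication by `m`. -/
theorem card_of_smul_surj (A B : AddSubgroup T) (m : ℕ) (h1 : ∀ x ∈ A, m • x ∈ B)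
    (h2 : ∀ y ∈ B, ∃ x ∈ A, m • x = y) (h3 : tor T m ≤ A) :
    Nat.card A = Nat.card (tor T m) * Nat.card B := by
  let f : A →+ B := AddMonoidHom.mk' (fun x => ⟨m • x.1, h1 x.1 x.2⟩) (by
    intro a b
    ext
    simp [smul_add])
  have hf : Function.Surjective f := by
    rintro ⟨y, hy⟩
    obtain ⟨x, hx, hxy⟩ := h2 y hy
    exact ⟨⟨x, hx⟩, Subtype.ext hxy⟩
  rw [card_eq_ker_mul_of_surj f hf]
  congr 1
  refine Nat.card_congr ⟨fun x => ⟨x.1.1, ?_⟩, fun x => ⟨⟨x.1, h3 x.2⟩, ?_⟩, ?_, ?_⟩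
  · have := x.2
    rw [AddMonoidHom.mem_ker] at this
    exact congrArg Subtype.val this
  · rw [AddMonoidHom.mem_ker]
    exact Subtype.ext x.2
  · intro x; rfl
  · intro x; rfl

end EndRing

section Main

variable {T : Type*} [AddCommGroup T]

/-- Step 2: in an `ℓ`-divisible group, `#T[ℓ^k] = (#T[ℓ])^k`. -/
theorem card_tor_pow (ℓ : ℕ) (hdiv : ∀ x : T, ∃ y : T, ℓ • y = x) (k : ℕ) :
    Nat.card (tor T (ℓ ^ k)) = Nat.card (tor T ℓ) ^ k := by
  induction k with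
  | zero =>
    simp only [pow_zero]
    have : Subsingleton (tor T 1) := by
      constructor
      rintro ⟨a, ha⟩ ⟨b, hb⟩
      rw [mem_tor, one_smul] at ha hb
      exact Subtype.ext (ha.trans hb.symm)
    exact Nat.card_unique
  | succ k ih =>
    rw [card_of_smul_surj (tor T (ℓ ^ (k + 1))) (tor T (ℓ ^ k)) ℓ ?_ ?_ ?_, ih, pow_succ, mul_comm]
    · intro x hx
      rw [mem_tor] at hx ⊢
      rw [← mul_smul, ← pow_succ]
      exact hx
    · intro y hy
      obtain ⟨x, hx⟩ := hdiv y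
      refine ⟨x, ?_, hx⟩
      rw [mem_tor] at hy ⊢
      rw [pow_succ, mul_smul, hx]
      exact hy
    · exact tor_mono (dvd_pow_self ℓ (Nat.succ_ne_zero k))

/-- Step 3, key lemma: if `ψ` fixes `T[ℓ²]` then, on torsion elements,
`ψ^ℓ x = x ↔ ψ (ℓ x) = ℓ x`. -/
theorem pow_prime_fix_iff (ℓ : ℕ) (ψ : Module.End ℤ T)
    (hψ : ∀ z : T, (ℓ ^ 2) • z = 0 → ψ z = z) (x : T) (hx : ∃ s : ℕ, (ℓ ^ s) • x = 0) :
    (ψ ^ ℓ) x = x ↔ ψ (ℓ • x) = ℓ • x := by
  set D : Module.End ℤ T := ψ - 1 with hD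
  have hψD : ψ = 1 + D := by rw [hD]; abel
  have hDz : ∀ z : T, (ℓ ^ 2) • z = 0 → D z = 0 := by
    intro z hz
    rw [hD, LinearMap.sub_apply, hψ z hz, Module.End.one_apply, sub_self]
  obtain ⟨Q, hQ⟩ := exists_binom_two D ℓ
  have hexp : (ψ ^ ℓ) x = x + ℓ • D x + Q (D (D x)) := by
    rw [hψD, hQ]
    simp only [LinearMap.add_apply, Module.End.one_apply, Module.End.mul_apply,
      Module.End.natCast_apply]
  have hfix : ∀ y : T, ψ y = y ↔ D y = 0 := by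
    intro y
    rw [hD, LinearMap.sub_apply, Module.End.one_apply, sub_eq_zero]
  rw [hfix, map_nsmul_end]
  constructor
  · intro h
    rw [hexp] at h
    have hy : ℓ • D x = - Q (D (D x)) := by
      have h' : ℓ • D x + Q (D (D x)) = 0 := by
        have := h
        rw [add_assoc] at this
        exact left_eq_add.mp this.symm |>.symm ▸ rfl
      exact eq_neg_of_add_eq_zero_left h'
    obtain ⟨s, hs⟩ := hx
    have hys : (ℓ ^ s) • D x = 0 := by rw [← map_nsmul_end, hs, map_zero]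
    -- descending induction
    have key : ∀ s : ℕ, (ℓ ^ s) • D x = 0 → ℓ • D x = 0 := by
      intro s
      induction s using Nat.strong_induction_on with
      | _ s ih =>
        intro hs
        rcases s with _ | _ | s
        · rw [pow_zero, one_smul] at hs
          rw [hs, smul_zero]
        · rwa [pow_one] at hs
        · apply ih (s + 1) (by omega)
          have h1 : (ℓ ^ 2) • ((ℓ ^ s) • D x) = 0 := by
            rw [← mul_smul, ← pow_add, add_comm]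
            exact hs
          have h2 : D ((ℓ ^ s) • D x) = 0 := hDz _ h1
          rw [map_nsmul_end] at h2
          rw [pow_succ, mul_smul, hy, smul_neg, ← map_nsmul_end, h2, map_zero, neg_zero]
    exact key s hys
  · intro h
    have h1 : D (D x) = 0 := by
      apply hDz
      rw [pow_two, mul_smul, h, smul_zero]
    rw [hexp, h, h1, map_zero, add_zero, add_zero]

/-- Step 1: the `ℓ`-torsion is contained in one of the fixed groups (hence finite). -/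
theorem exists_tor_le_fix (ℓ : ℕ) (hℓ : ℓ.Prime) (ψ : Module.End ℤ T) (C n : ℕ)
    (hcard : ∀ j, Nat.card (fixG (ψ ^ (ℓ ^ j))) = ℓ ^ (C + n * j))
    (hun : ∀ x : T, ∃ j, (ψ ^ (ℓ ^ j)) x = x) :
    ∃ j0, tor T ℓ ≤ fixG (ψ ^ (ℓ ^ j0)) := by
  obtain ⟨j, hj⟩ := exists_lin_lt_two_pow (ℓ * C) (ℓ * n)
  have hℓ2 : 2 ≤ ℓ := hℓ.two_le
  have hfin : ∀ j, Finite (fixG (ψ ^ (ℓ ^ j))) := fun j =>
    Nat.finite_of_card_ne_zero (by rw [hcard]; exact pow_ne_zero _ (by omega))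
  have hWle : chainW ℓ (ψ - 1) (ℓ ^ j) ≤ fixG (ψ ^ (ℓ ^ j)) := fun x hx =>
    ((chainW_prime_pow ℓ hℓ ψ j x).mp hx).2
  have hWfin : Finite (chainW ℓ (ψ - 1) (ℓ ^ j)) :=
    Finite.of_injective (AddSubgroup.inclusion hWle) (AddSubgroup.inclusion_injective _)
  have hex : ∃ k, k < ℓ ^ j ∧ chainW ℓ (ψ - 1) k = chainW ℓ (ψ - 1) (k + 1) := by
    by_contra hcon
    have hne : ∀ k < ℓ ^ j, chainW ℓ (ψ - 1) k ≠ chainW ℓ (ψ - 1) (k + 1) :=
      fun k hk h => hcon ⟨k, hk, h⟩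
    have h1 := two_pow_le_card_chainW ℓ (ψ - 1) (ℓ ^ j) hWfin hne
    have h2 : Nat.card (chainW ℓ (ψ - 1) (ℓ ^ j)) ≤ Nat.card (fixG (ψ ^ (ℓ ^ j))) := by
      have := hfin j
      exact AddSubgroup.card_le_of_le hWle
    rw [hcard] at h2
    have h3 : ℓ ^ (C + n * j) ≤ 2 ^ (ℓ * (C + n * j)) := by
      rw [pow_mul]
      exact Nat.pow_le_pow_left (Nat.lt_two_pow_self).le _
    have h4 : ℓ * (C + n * j) < ℓ ^ j := by
      have : ℓ * (C + n * j) = ℓ * C + ℓ * n * j := by ring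
      rw [this]
      exact lt_of_lt_of_le hj (Nat.pow_le_pow_left hℓ2 j)
    have h5 : 2 ^ (ℓ * (C + n * j)) < 2 ^ (ℓ ^ j) := Nat.pow_lt_pow_right (by omega) h4
    omega
  obtain ⟨k, hk, hkW⟩ := hex
  refine ⟨j, ?_⟩
  intro x hx
  obtain ⟨j', hj'⟩ := hun x
  have hxJ : x ∈ fixG (ψ ^ (ℓ ^ (max j j'))) :=
    fixG_prime_pow_mono ℓ ψ (le_max_right j j') hj'
  have hxW : x ∈ chainW ℓ (ψ - 1) (ℓ ^ (max j j')) :=
    (chainW_prime_pow ℓ hℓ ψ _ x).mpr ⟨hx, hxJ⟩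
  have hle : ℓ ^ j ≤ ℓ ^ (max j j') := Nat.pow_le_pow_right (by omega) (le_max_left j j')
  obtain ⟨m, hm⟩ := Nat.exists_eq_add_of_le (le_of_lt (lt_of_lt_of_le hk hle))
  rw [hm, chainW_stable' ℓ (ψ - 1) k hkW m] at hxW
  exact hWle (chainW_mono' ℓ (ψ - 1) (le_of_lt hk) hxW)

/-- A finite subgroup is contained in one of the fixed groups. -/
theorem exists_le_fix_of_finite (ℓ : ℕ) (ψ : Module.End ℤ T) (S : AddSubgroup T)
    (hS : Finite S) (hun : ∀ x : T, ∃ j, (ψ ^ (ℓ ^ j)) x = x) :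
    ∃ j1, S ≤ fixG (ψ ^ (ℓ ^ j1)) := by
  classical
  letI := Fintype.ofFinite S
  refine ⟨Finset.univ.sup (fun x : S => Classical.choose (hun x.1)), ?_⟩
  intro x hx
  have h1 : Classical.choose (hun x) ≤
      Finset.univ.sup (fun x : S => Classical.choose (hun x.1)) :=
    Finset.le_sup (f := fun x : S => Classical.choose (hun x.1)) (Finset.mem_univ ⟨x, hx⟩)
  exact fixG_prime_pow_mono ℓ ψ h1 (Classical.choose_spec (hun x))

/-- **IW-A** (for an `ℓ`-primary group).  `T` is `ℓ`-divisible and `ℓ`-primary, `ψ` an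
endomorphism whose fixed groups `T^{ψ^(ℓ^j)}` have `ℓ^(C + n j)` elements and exhaust `T`.
Then `#T[ℓ] = ℓ^n`. -/
theorem card_tor_of_growth (ℓ : ℕ) (hℓ : ℓ.Prime) (ψ : Module.End ℤ T) (C n : ℕ)
    (hdiv : ∀ x : T, ∃ y : T, ℓ • y = x)
    (htors : ∀ x : T, ∃ s : ℕ, (ℓ ^ s) • x = 0)
    (hcard : ∀ j, Nat.card (fixG (ψ ^ (ℓ ^ j))) = ℓ ^ (C + n * j))
    (hun : ∀ x : T, ∃ j, (ψ ^ (ℓ ^ j)) x = x) :
    Nat.card (tor T ℓ) = ℓ ^ n := by
  have hℓ2 : 2 ≤ ℓ := hℓ.two_le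
  have hfin : ∀ j, Finite (fixG (ψ ^ (ℓ ^ j))) := fun j =>
    Nat.finite_of_card_ne_zero (by rw [hcard]; exact pow_ne_zero _ (by omega))
  obtain ⟨j0, hj0⟩ := exists_tor_le_fix ℓ hℓ ψ C n hcard hun
  have hfin1 : Finite (tor T ℓ) :=
    Finite.of_injective (AddSubgroup.inclusion hj0) (AddSubgroup.inclusion_injective _)
  have hfin2 : Finite (tor T (ℓ ^ 2)) := by
    apply Nat.finite_of_card_ne_zero
    rw [card_tor_pow ℓ hdiv 2]
    exact pow_ne_zero _ (Nat.card_pos).ne'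
  obtain ⟨j1, hj1⟩ := exists_le_fix_of_finite ℓ ψ _ hfin2 hun
  have hψ : ∀ z : T, (ℓ ^ 2) • z = 0 → (ψ ^ (ℓ ^ j1)) z = z := fun z hz => hj1 hz
  have hpow : ψ ^ (ℓ ^ (j1 + 1)) = (ψ ^ (ℓ ^ j1)) ^ ℓ := by rw [pow_succ, pow_mul]
  have hstep : Nat.card (fixG (ψ ^ (ℓ ^ (j1 + 1)))) =
      Nat.card (tor T ℓ) * Nat.card (fixG (ψ ^ (ℓ ^ j1))) := by
    apply card_of_smul_surj
    · intro x hx
      rw [mem_fixG, hpow] at hx
      exact (pow_prime_fix_iff ℓ _ hψ x (htors x)).mp hx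
    · intro y hy
      obtain ⟨x, hx⟩ := hdiv y
      refine ⟨x, ?_, hx⟩
      rw [mem_fixG, hpow]
      apply (pow_prime_fix_iff ℓ _ hψ x (htors x)).mpr
      rw [hx]
      exact hy
    · intro x hx
      have h1 : x ∈ tor T (ℓ ^ 2) := tor_mono (dvd_pow_self ℓ (by norm_num)) hx
      exact fixG_prime_pow_mono ℓ ψ (Nat.le_succ j1) (hj1 h1)
  rw [hcard, hcard] at hstep
  have h2 : ℓ ^ (C + n * (j1 + 1)) = ℓ ^ n * ℓ ^ (C + n * j1) := by
    rw [← pow_add]
    congr 1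
    ring
  rw [h2] at hstep
  exact (Nat.eq_of_mul_eq_mul_right (pow_pos (by omega) _) hstep).symm

/-- **IW-A**, all levels: `#T[ℓ^k] = ℓ^(n k)`. -/
theorem card_tor_pow_of_growth (ℓ : ℕ) (hℓ : ℓ.Prime) (ψ : Module.End ℤ T) (C n : ℕ)
    (hdiv : ∀ x : T, ∃ y : T, ℓ • y = x)
    (htors : ∀ x : T, ∃ s : ℕ, (ℓ ^ s) • x = 0)
    (hcard : ∀ j, Nat.card (fixG (ψ ^ (ℓ ^ j))) = ℓ ^ (C + n * j))
    (hun : ∀ x : T, ∃ j, (ψ ^ (ℓ ^ j)) x = x) (k : ℕ) :
    Nat.card (tor T (ℓ ^ k)) = ℓ ^ (n * k) := by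
  rw [card_tor_pow ℓ hdiv k, card_tor_of_growth ℓ hℓ ψ C n hdiv htors hcard hun, pow_mul]

end Main

end Fermat.Agent.S27.IW.H45
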