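/-
S27 (row 26), package IW-A (helper45), consumer form.

`P` an abelian group (`= Pic⁰(F̃)`), `φ : P →+ P` (Frobenius), `ℓ` a prime such that
* `P` is `ℓ`-divisible, every element is fixed by some `φ^m` (`m ≥ 1`),
* `#P^{φ^m} = h m ≠ 0` and `v_ℓ (h (e m)) = C + n v_ℓ(m)` for all `m ≥ 1`.
Then `#P[ℓ^k] = ℓ^(n k)` for all `k`.
-/
import Fermat.Agent.S27.IW.H45_Group

set_option autoImplicit false

namespace Fermat.Agent.S27.IW.H45

section Sylow

theorem card_primary_mul (ℓ : ℕ) [hℓ : Fact ℓ.Prime] (G : Type*) [CommGroup G] [Finite G] :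
    Nat.card {x : G // ∃ s : ℕ, x ^ (ℓ ^ s) = 1} = ℓ ^ padicValNat ℓ (Nat.card G) := by
  classical
  obtain ⟨P⟩ : Nonempty (Sylow ℓ G) := inferInstance
  have hmem : ∀ g : G, g ∈ P ↔ ∃ s : ℕ, g ^ (ℓ ^ s) = 1 := by
    intro g
    constructor
    · intro hg
      obtain ⟨k, hk⟩ := P.isPGroup' ⟨g, hg⟩
      exact ⟨k, by simpa using congrArg Subtype.val hk⟩
    · rintro ⟨s, hs⟩
      have hp : IsPGroup ℓ (Subgroup.zpowers g) := by
        rintro ⟨x, hx⟩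
        obtain ⟨i, rfl⟩ := Subgroup.mem_zpowers_iff.mp hx
        refine ⟨s, Subtype.ext ?_⟩
        simp only [SubmonoidClass.mk_pow, OneMemClass.coe_one]
        rw [← zpow_natCast, ← zpow_mul, mul_comm, zpow_mul, zpow_natCast, hs, one_zpow]
      obtain ⟨Q, hQ⟩ := hp.exists_le_sylow
      obtain ⟨c, hc⟩ := MulAction.exists_smul_eq G Q P
      have hQP : Q = P := by
        rw [← hc]
        exact (Sylow.smul_eq_of_normal).symm
      rw [← hQP]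
      exact hQ (Subgroup.mem_zpowers g)
  have h1 : Nat.card {x : G // ∃ s : ℕ, x ^ (ℓ ^ s) = 1} = Nat.card P :=
    Nat.card_congr (Equiv.subtypeEquivRight (fun g => (hmem g).symm))
  rw [h1, P.card_eq_multiplicity, Nat.factorization_def _ hℓ.out]

/-- The `ℓ`-primary part of a finite abelian group of order `N` has `ℓ^(v_ℓ N)` elements. -/
theorem card_primary_part (ℓ : ℕ) [hℓ : Fact ℓ.Prime] (A : Type*) [AddCommGroup A] [Finite A] :
    Nat.card {x : A // ∃ s : ℕ, ℓ ^ s • x = 0} = ℓ ^ padicValNat ℓ (Nat.card A) := by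
  have h := card_primary_mul ℓ (Multiplicative A)
  rw [Nat.card_congr Multiplicative.ofAdd.symm] at h
  rw [← h]
  refine Nat.card_congr (Equiv.subtypeEquiv Multiplicative.ofAdd ?_)
  intro a
  constructor
  · rintro ⟨s, hs⟩
    refine ⟨s, ?_⟩
    rw [← ofAdd_nsmul, hs, ofAdd_zero]
  · rintro ⟨s, hs⟩
    refine ⟨s, ?_⟩
    rw [← ofAdd_nsmul] at hs
    exact Multiplicative.ofAdd.injective (hs.trans ofAdd_zero.symm)

end Sylow

section Wrapper

variable {P : Type*} [AddCommGroup P]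

/-- The iterate of an additive map, as an additive map. -/
def itHom (φ : P →+ P) (m : ℕ) : P →+ P where
  toFun := φ^[m]
  map_zero' := iterate_map_zero φ m
  map_add' := iterate_map_add φ m

@[simp] theorem itHom_apply (φ : P →+ P) (m : ℕ) (x : P) : itHom φ m x = φ^[m] x := rfl

/-- `ℓ`-primary elements fixed by `φ^m`. -/
def primFix (ℓ : ℕ) (φ : P →+ P) (m : ℕ) : AddSubgroup P where
  carrier := {x | (∃ s : ℕ, ℓ ^ s • x = 0) ∧ φ^[m] x = x}
  zero_mem' := ⟨⟨0, by simp⟩, iterate_map_zero φ m⟩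
  add_mem' := by
    rintro a b ⟨⟨s, hs⟩, ha⟩ ⟨⟨t, ht⟩, hb⟩
    refine ⟨⟨s + t, ?_⟩, ?_⟩
    · have h1 : (ℓ ^ s * ℓ ^ t) • a = 0 := by rw [mul_comm, mul_smul, hs, smul_zero]
      have h2 : (ℓ ^ s * ℓ ^ t) • b = 0 := by rw [mul_smul, ht, smul_zero]
      rw [smul_add, pow_add, h1, h2, add_zero]
    · rw [iterate_map_add, ha, hb]
  neg_mem' := by
    rintro a ⟨⟨s, hs⟩, ha⟩
    refine ⟨⟨s, by rw [smul_neg, hs, neg_zero]⟩, ?_⟩
    rw [iterate_map_neg, ha]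

theorem mem_primFix {ℓ : ℕ} {φ : P →+ P} {m : ℕ} {x : P} :
    x ∈ primFix ℓ φ m ↔ (∃ s : ℕ, ℓ ^ s • x = 0) ∧ φ^[m] x = x := Iff.rfl

theorem primFix_mono (ℓ : ℕ) (φ : P →+ P) {a b : ℕ} (h : a ∣ b) :
    primFix ℓ φ a ≤ primFix ℓ φ b := by
  rintro x ⟨hx, hx'⟩
  obtain ⟨c, rfl⟩ := h
  refine ⟨hx, ?_⟩
  rw [Function.iterate_mul]
  exact Function.iterate_fixed hx' c

/-- The cardinality of `primFix`. -/
theorem card_primFix (ℓ : ℕ) [hℓ : Fact ℓ.Prime] (φ : P →+ P) (m : ℕ) (N : ℕ) (hN : N ≠ 0)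
    (hcard : Nat.card {x : P // φ^[m] x = x} = N) :
    Nat.card (primFix ℓ φ m) = ℓ ^ padicValNat ℓ N := by
  -- the fixed points as a group
  let A : AddSubgroup P := (itHom φ m - AddMonoidHom.id P).ker
  have hA : ∀ x : P, x ∈ A ↔ φ^[m] x = x := by
    intro x
    rw [AddMonoidHom.mem_ker, AddMonoidHom.sub_apply, itHom_apply, AddMonoidHom.id_apply,
      sub_eq_zero]
  have hAcard : Nat.card A = N := by
    rw [← hcard]
    exact Nat.card_congr (Equiv.subtypeEquivRight hA)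
  have : Finite A := Nat.finite_of_card_ne_zero (by rw [hAcard]; exact hN)
  rw [← hAcard, ← card_primary_part ℓ A]
  refine Nat.card_congr ⟨fun x => ⟨⟨x.1, (hA _).mpr x.2.2⟩, ?_⟩,
    fun y => ⟨y.1.1, ?_, (hA _).mp y.1.2⟩, ?_, ?_⟩
  · obtain ⟨s, hs⟩ := x.2.1
    exact ⟨s, Subtype.ext hs⟩
  · obtain ⟨s, hs⟩ := y.2
    exact ⟨s, congrArg Subtype.val hs⟩
  · intro x; rfl
  · intro y; rfl

theorem itHom_nsmul (φ : P →+ P) (m k : ℕ) (x : P) : φ^[m] (k • x) = k • φ^[m] x :=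
  map_nsmul (itHom φ m) k x

/-- The `ℓ`-primary part of `P` (as `primFix` with exponent `0`). -/
abbrev primPart (ℓ : ℕ) (φ : P →+ P) : AddSubgroup P := primFix ℓ φ 0

theorem mem_primPart {ℓ : ℕ} {φ : P →+ P} {x : P} :
    x ∈ primPart ℓ φ ↔ ∃ s : ℕ, ℓ ^ s • x = 0 := by
  rw [mem_primFix]
  simp

/-- `φ^e` restricted to the primary part. -/
def resEnd (ℓ : ℕ) (φ : P →+ P) (e : ℕ) : Module.End ℤ (primPart ℓ φ) :=
  (AddMonoidHom.mk' (fun x : primPart ℓ φ => (⟨φ^[e] x.1, by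
      obtain ⟨s, hs⟩ := mem_primPart.mp x.2
      exact mem_primPart.mpr ⟨s, by rw [← itHom_nsmul, hs, iterate_map_zero]⟩⟩ : primPart ℓ φ))
    (by
      intro a b
      ext
      simp [iterate_map_add])).toIntLinearMap

theorem resEnd_apply (ℓ : ℕ) (φ : P →+ P) (e : ℕ) (x : primPart ℓ φ) :
    ((resEnd ℓ φ e) x : P) = φ^[e] x.1 := rfl

theorem resEnd_pow_apply (ℓ : ℕ) (φ : P →+ P) (e k : ℕ) (x : primPart ℓ φ) :
    (((resEnd ℓ φ e) ^ k) x : P) = φ^[e * k] x.1 := by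
  induction k generalizing x with
  | zero => simp
  | succ k ih =>
    rw [pow_succ, Module.End.mul_apply, ih, resEnd_apply, mul_add, mul_one,
      Function.iterate_add_apply]

theorem card_fixG_resEnd (ℓ : ℕ) (φ : P →+ P) (e k : ℕ) :
    Nat.card (fixG ((resEnd ℓ φ e) ^ k)) = Nat.card (primFix ℓ φ (e * k)) := by
  refine Nat.card_congr ⟨fun x => ⟨x.1.1, mem_primPart.mp x.1.2, ?_⟩,
    fun y => ⟨⟨y.1, mem_primPart.mpr y.2.1⟩, ?_⟩, ?_, ?_⟩
  · have := x.2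
    rw [mem_fixG] at this
    have h2 := congrArg Subtype.val this
    rwa [resEnd_pow_apply] at h2
  · rw [mem_fixG]
    apply Subtype.ext
    rw [resEnd_pow_apply]
    exact y.2.2
  · intro x; rfl
  · intro y; rfl

/-- **IW-A, consumer form.** -/
theorem iw_main (ℓ : ℕ) [hℓ : Fact ℓ.Prime] (n : ℕ) (φ : P →+ P)
    (hdiv : ∀ x : P, ∃ y : P, ℓ • y = x)
    (hun : ∀ x : P, ∃ m, 0 < m ∧ φ^[m] x = x)
    (h : ℕ → ℕ) (hcard : ∀ m, 0 < m → Nat.card {x : P // φ^[m] x = x} = h m)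
    (hpos : ∀ m, 0 < m → h m ≠ 0)
    (e C : ℕ) (he : 0 < e)
    (hval : ∀ m, 0 < m → padicValNat ℓ (h (e * m)) = C + n * padicValNat ℓ m) (k : ℕ) :
    Nat.card {x : P // ℓ ^ k • x = 0} = ℓ ^ (n * k) := by
  have hℓpos : 0 < ℓ := hℓ.out.pos
  have hcardPF : ∀ m, 0 < m →
      Nat.card (primFix ℓ φ (e * m)) = ℓ ^ (C + n * padicValNat ℓ m) := by
    intro m hm
    have hem : 0 < e * m := Nat.mul_pos he hm
    rw [card_primFix ℓ φ (e * m) (h (e * m)) (hpos _ hem) (hcard _ hem), hval m hm]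
  set ψ := resEnd ℓ φ e with hψ
  have hcardG : ∀ j, Nat.card (fixG (ψ ^ (ℓ ^ j))) = ℓ ^ (C + n * j) := by
    intro j
    rw [card_fixG_resEnd, hcardPF _ (pow_pos hℓpos j), padicValNat.prime_pow]
  have hdivT : ∀ x : primPart ℓ φ, ∃ y : primPart ℓ φ, ℓ • y = x := by
    rintro ⟨x, hx⟩
    obtain ⟨y, hy⟩ := hdiv x
    obtain ⟨s, hs⟩ := mem_primPart.mp hx
    refine ⟨⟨y, mem_primPart.mpr ⟨s + 1, ?_⟩⟩, Subtype.ext hy⟩
    rw [pow_succ, mul_smul, hy, hs]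
  have htorsT : ∀ x : primPart ℓ φ, ∃ s : ℕ, (ℓ ^ s) • x = 0 := by
    rintro ⟨x, hx⟩
    obtain ⟨s, hs⟩ := mem_primPart.mp hx
    exact ⟨s, Subtype.ext hs⟩
  have hunT : ∀ x : primPart ℓ φ, ∃ j, (ψ ^ (ℓ ^ j)) x = x := by
    rintro ⟨x, hx⟩
    obtain ⟨m, hm, hfix⟩ := hun x
    refine ⟨padicValNat ℓ m, ?_⟩
    have hle : primFix ℓ φ (e * ℓ ^ padicValNat ℓ m) ≤ primFix ℓ φ (e * m) :=
      primFix_mono ℓ φ (Nat.mul_dvd_mul_left e pow_padicValNat_dvd)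
    have hc1 := hcardPF m hm
    have hc2 := hcardPF (ℓ ^ padicValNat ℓ m) (pow_pos hℓpos _)
    rw [padicValNat.prime_pow] at hc2
    have hfin : Finite (primFix ℓ φ (e * m)) :=
      Nat.finite_of_card_ne_zero (by rw [hc1]; exact pow_ne_zero _ hℓpos.ne')
    have heq : primFix ℓ φ (e * ℓ ^ padicValNat ℓ m) = primFix ℓ φ (e * m) :=
      AddSubgroup.eq_of_le_of_card_ge hle (by rw [hc1, hc2])
    have hxm : x ∈ primFix ℓ φ (e * m) := by
      refine ⟨mem_primPart.mp hx, ?_⟩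
      rw [mul_comm, Function.iterate_mul]
      exact Function.iterate_fixed hfix e
    rw [← heq] at hxm
    apply Subtype.ext
    rw [hψ, resEnd_pow_apply]
    exact hxm.2
  have hmain := card_tor_pow_of_growth ℓ hℓ.out ψ C n hdivT htorsT hcardG hunT k
  rw [← hmain]
  refine Nat.card_congr ⟨fun x => ⟨⟨x.1, mem_primPart.mpr ⟨k, x.2⟩⟩, ?_⟩,
    fun y => ⟨y.1.1, ?_⟩, ?_, ?_⟩
  · rw [mem_tor]
    exact Subtype.ext x.2
  · have := y.2
    rw [mem_tor] at this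
    exact congrArg Subtype.val this
  · intro x; rfl
  · intro y; rfl

end Wrapper

end Fermat.Agent.S27.IW.H45
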